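/-
Program H (S18: reduction mod `ℓ` is injective on prime-to-`ℓ` torsion of `J₀(N)`) — helper4 (integrator).

Top-level contract between the chapters of `Fermat/Agent/RED/`.  The chain is

  S18  ⇐(TOP)  `CLBar ℓ N A`  ⇐(LVL)  `CLBar ℓ M A`  ⇐(DESC)  `∀ K, CLNum ℓ M A K`  ⇐(CORE + MODEL)

* `CLBar ℓ N A`  : the core lemma over `ℚ̄`, in FIELD form (no divisor crosses a chapter boundary):
  if `P, Q ∈ A((q))` have coefficient images in `ℚ̄·F_N`, the same nonzero reduction, and the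
  order of `P/Q` at every place of `ℚ̄·F_N` is divisible by `m` (`ℓ ∤ m`), then `P/Q` is an `m`-th
  power in `ℚ̄·F_N`.
* `CLNum ℓ M A K` : the same over a number field `K ⊂ ℚ̄`, the discrete valuation ring
  `AK A K = A ∩ K`, the field `K·F_M`, places of `K·F_M / K`; conclusion up to a constant of `K`.
* `LevelStep`     : statement shape of chapter LVL.
* `DescStep`      : statement shape of chapter DESC.
-/
import Mathlib
import Fermat.Prelude.Def_ModularCurve_ReductionModL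

set_option autoImplicit false

open HahnSeries AlgebraicCurve ModularCurve

noncomputable section

namespace Fermat.Agent.RED.Interface4

/-- `ℚ̄`. -/
abbrev Qbar : Type := AlgebraicClosure ℚ

/-- The function field `ℚ̄·F_N ⊂ ℚ̄((q))` of `X₀(N)` over `ℚ̄` (the Prelude's `modularFunctionFieldBar`). -/
abbrev Fbar (N : ℕ) : IntermediateField Qbar (LaurentSeries Qbar) := modularFunctionFieldBar N

/-- **(CL) over `ℚ̄` at level `N`, field form.** -/
def CLBar (ℓ N : ℕ) (A : ValuationSubring Qbar) : Prop :=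
  ∀ (P Q : LaurentSeries A)
    (hP : coeffMap A.subtype P ∈ Fbar N) (hQ : coeffMap A.subtype Q ∈ Fbar N),
    coeffMap (IsLocalRing.residue A) P = coeffMap (IsLocalRing.residue A) Q →
    coeffMap (IsLocalRing.residue A) P ≠ 0 →
    ∀ m : ℕ, ¬ ℓ ∣ m →
      (∀ v : Place Qbar (Fbar N),
        (m : ℤ) ∣ v.ord (⟨coeffMap A.subtype P, hP⟩ : Fbar N) -
          v.ord (⟨coeffMap A.subtype Q, hQ⟩ : Fbar N)) →
      ∃ s : Fbar N, s ^ m * (⟨coeffMap A.subtype Q, hQ⟩ : Fbar N) = ⟨coeffMap A.subtype P, hP⟩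

/-- The valuation ring `A ∩ K` of a subfield `K ⊂ ℚ̄`. -/
def AK (A : ValuationSubring Qbar) (K : IntermediateField ℚ Qbar) : ValuationSubring K :=
  A.comap (algebraMap K Qbar)

/-- The function field `K·F_M ⊂ K((q))` of `X₀(M)` over a subfield `K ⊂ ℚ̄`. -/
abbrev FK (M : ℕ) (K : IntermediateField ℚ Qbar) : IntermediateField K (LaurentSeries K) :=
  laurentBaseChange K (modularFunctionFieldFull M)

/-- **(CL) over a number field `K ⊂ ℚ̄` at level `M`.**  Conclusion up to a nonzero constant. -/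
def CLNum (ℓ M : ℕ) (A : ValuationSubring Qbar) (K : IntermediateField ℚ Qbar) : Prop :=
  ∀ (P Q : LaurentSeries (AK A K))
    (hP : coeffMap (AK A K).subtype P ∈ FK M K) (hQ : coeffMap (AK A K).subtype Q ∈ FK M K),
    coeffMap (IsLocalRing.residue (AK A K)) P = coeffMap (IsLocalRing.residue (AK A K)) Q →
    coeffMap (IsLocalRing.residue (AK A K)) P ≠ 0 →
    ∀ m : ℕ, ¬ ℓ ∣ m →
      (∀ v : Place K (FK M K),
        (m : ℤ) ∣ v.ord (⟨coeffMap (AK A K).subtype P, hP⟩ : FK M K) -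
          v.ord (⟨coeffMap (AK A K).subtype Q, hQ⟩ : FK M K)) →
      ∃ (c : K) (s : FK M K), c ≠ 0 ∧
        s ^ m * (⟨coeffMap (AK A K).subtype Q, hQ⟩ : FK M K) =
          c • (⟨coeffMap (AK A K).subtype P, hP⟩ : FK M K)

/-- **Chapter LVL** (level change): `(CL)` at level `M` implies `(CL)` at level `N`.
To be proved for `N ∣ M`, `M = lcm N 4` (`ℓ` odd) and `M = lcm N 9` (`ℓ = 2`). -/
def LevelStep (ℓ N M : ℕ) (A : ValuationSubring Qbar) : Prop :=
  CLBar ℓ M A → CLBar ℓ N A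

/-- **Chapter DESC** (descent to number fields): `(CL)` over every number field `K ⊂ ℚ̄`
implies `(CL)` over `ℚ̄`. -/
def DescStep (ℓ M : ℕ) (A : ValuationSubring Qbar) : Prop :=
  (∀ K : IntermediateField ℚ Qbar, FiniteDimensional ℚ K → CLNum ℓ M A K) → CLBar ℓ M A

/-- The auxiliary level: `lcm N 4` for odd `ℓ`, `lcm N 9` for `ℓ = 2`. -/
def auxLevel (ℓ N : ℕ) : ℕ := if ℓ = 2 then Nat.lcm N 9 else Nat.lcm N 4

theorem dvd_auxLevel (ℓ N : ℕ) : N ∣ auxLevel ℓ N := by
  unfold auxLevel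
  split_ifs
  · exact Nat.dvd_lcm_left N 9
  · exact Nat.dvd_lcm_left N 4

theorem not_dvd_auxLevel {ℓ N : ℕ} (hℓ : ℓ.Prime) (hℓN : ¬ ℓ ∣ N) : ¬ ℓ ∣ auxLevel ℓ N := by
  unfold auxLevel
  split_ifs with h2
  · subst h2
    intro h
    have h18 : 2 ∣ N * 9 := h.trans (Nat.lcm_dvd_mul N 9)
    rcases (Nat.Prime.dvd_mul hℓ).1 h18 with h' | h'
    · exact hℓN h'
    · omega
  · intro h
    have h4 : ℓ ∣ N * 4 := h.trans (Nat.lcm_dvd_mul N 4)
    rcases (Nat.Prime.dvd_mul hℓ).1 h4 with h' | h'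
    · exact hℓN h'
    · have h4' : ℓ ∣ 2 * 2 := by simpa using h'
      rcases (Nat.Prime.dvd_mul hℓ).1 h4' with h'' | h'' <;>
        exact h2 ((Nat.prime_dvd_prime_iff_eq hℓ Nat.prime_two).1 h'')

theorem auxLevel_pos {ℓ N : ℕ} (hN : 0 < N) : 0 < auxLevel ℓ N := by
  unfold auxLevel
  split_ifs
  · exact Nat.lcm_pos hN (by norm_num)
  · exact Nat.lcm_pos hN (by norm_num)

/-- **The chain**: LVL + DESC + (CORE+MODEL at the auxiliary level) give `(CL)` at level `N`. -/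
theorem clBar_of_chain {ℓ N : ℕ} {A : ValuationSubring Qbar}
    (hlvl : LevelStep ℓ N (auxLevel ℓ N) A) (hdesc : DescStep ℓ (auxLevel ℓ N) A)
    (hnum : ∀ K : IntermediateField ℚ Qbar, FiniteDimensional ℚ K →
      CLNum ℓ (auxLevel ℓ N) A K) :
    CLBar ℓ N A :=
  hlvl (hdesc hnum)

end Fermat.Agent.RED.Interface4
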