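/-
Program H — helper4 (integrator).  Amendment of `RED/Interface4` (helper3's remark): the model and the
core only exist over number fields `K ⊇ K₀` (`K₀` containing the roots of unity, cusp values, … that
the chapters need), so the number-field statement `CLNum` is only asked for `K ⊇ K₀`.

* `DescStepGe ℓ M A` : shape of chapter DESC: for every number field `K₀`, `(CL)` over all number
  fields `K ⊇ K₀` implies `(CL)` over `ℚ̄`;
* `clBar_of_chain'`  : LVL + DESC + (`∃ K₀`, CORE+MODEL over all `K ⊇ K₀`) give `(CL)` at level `N`;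
* `ClAll ℓ N`        : `(CL)` at level `N` for every valuation subring of `ℚ̄` over `ℓ`
  (what the TOP bridge consumes).
-/
import Fermat.Agent.RED.Interface4
import Fermat.Prelude.Def_FLTPrelim_Ramification

set_option autoImplicit false

open HahnSeries AlgebraicCurve ModularCurve

noncomputable section

namespace Fermat.Agent.RED.InterfaceGe4

open Fermat.Agent.RED.Interface4

/-- **Chapter DESC**, final shape: `(CL)` over every number field `K ⊇ K₀` implies `(CL)` over `ℚ̄`. -/
def DescStepGe (ℓ M : ℕ) (A : ValuationSubring Qbar) : Prop :=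
  ∀ K₀ : IntermediateField ℚ Qbar, FiniteDimensional ℚ K₀ →
    (∀ K : IntermediateField ℚ Qbar, FiniteDimensional ℚ K → K₀ ≤ K → CLNum ℓ M A K) →
      CLBar ℓ M A

/-- **CORE + MODEL**, final shape: there is a number field `K₀` such that `(CL)` holds over every
number field `K ⊇ K₀`. -/
def NumStep (ℓ M : ℕ) (A : ValuationSubring Qbar) : Prop :=
  ∃ K₀ : IntermediateField ℚ Qbar, FiniteDimensional ℚ K₀ ∧
    ∀ K : IntermediateField ℚ Qbar, FiniteDimensional ℚ K → K₀ ≤ K → CLNum ℓ M A K

theorem clBar_of_descStepGe {ℓ M : ℕ} {A : ValuationSubring Qbar}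
    (hdesc : DescStepGe ℓ M A) (hnum : NumStep ℓ M A) : CLBar ℓ M A := by
  obtain ⟨K₀, hK₀, h⟩ := hnum
  exact hdesc K₀ hK₀ h

/-- **The chain**: LVL + DESC + (CORE+MODEL at the auxiliary level) give `(CL)` at level `N`. -/
theorem clBar_of_chain' {ℓ N : ℕ} {A : ValuationSubring Qbar}
    (hlvl : LevelStep ℓ N (auxLevel ℓ N) A) (hdesc : DescStepGe ℓ (auxLevel ℓ N) A)
    (hnum : NumStep ℓ (auxLevel ℓ N) A) :
    CLBar ℓ N A :=
  hlvl (clBar_of_descStepGe hdesc hnum)

/-- `(CL)` at level `N` for every valuation subring of `ℚ̄` lying over `ℓ`. -/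
def ClAll (ℓ N : ℕ) : Prop :=
  ∀ A : ValuationSubring Qbar, A.LiesOverPrime ℓ → CLBar ℓ N A

end Fermat.Agent.RED.InterfaceGe4
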