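/-
Program H (S18) — helper4 (integrator): instantiation of the abstract core.

`CLStmt O E ℓ` is the number-field core lemma `(CL)` for an arbitrary field `Kt`, a valuation
subring `O` of `Kt` and a subfield `E ⊂ Kt((q))`; `Interface4.CLNum ℓ M A K` is literally
`CLStmt (AK A K) (FK M K) ℓ` (`clNum_iff`).

`clStmt_of_core` : the abstract core `CoreIface24.CoreB` + a `TwoChartModel` whose valuation ring is
the Gauss valuation ring `GaussGen8.gaussVS` + "`Kt` is algebraically closed in `E`" + "`m` is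
invertible in `O` for `ℓ ∤ m`" give `CLStmt O E ℓ`.
-/
import Mathlib
import Fermat.Agent.RED.InterfaceGe4
import Fermat.Agent.RED.CORE.CoreIface24
import Fermat.Agent.RED.PUR.GaussGen8
import Fermat.Agent.X0.FFPlace

set_option autoImplicit false

open HahnSeries AlgebraicCurve ModularCurve

noncomputable section

namespace Fermat.Agent.RED.NumInst4

open Fermat.Agent.RED.CORE.CoreIface24 Fermat.Agent.RED.PUR.GaussGen8 Fermat.Agent.X0.FF

section Abstract

variable {Kt : Type*} [Field Kt] (O : ValuationSubring Kt)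
  (E : IntermediateField Kt (LaurentSeries Kt))

/-- The core lemma `(CL)` over `(Kt, O, E)`, conclusion up to a nonzero constant of `Kt`. -/
def CLStmt (ℓ : ℕ) : Prop :=
  ∀ (P Q : LaurentSeries O) (hP : coeffMap O.subtype P ∈ E) (hQ : coeffMap O.subtype Q ∈ E),
    coeffMap (IsLocalRing.residue O) P = coeffMap (IsLocalRing.residue O) Q →
    coeffMap (IsLocalRing.residue O) P ≠ 0 →
    ∀ m : ℕ, ¬ ℓ ∣ m →
      (∀ v : Place Kt E,
        (m : ℤ) ∣ v.ord (⟨coeffMap O.subtype P, hP⟩ : E) -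
          v.ord (⟨coeffMap O.subtype Q, hQ⟩ : E)) →
      ∃ (c : Kt) (s : E), c ≠ 0 ∧
        s ^ m * (⟨coeffMap O.subtype Q, hQ⟩ : E) = c • (⟨coeffMap O.subtype P, hP⟩ : E)

variable {O E}

/-- (U2) of the core from the divisibility of the orders at all places. -/
theorem u2_of_places (m : ℕ) (p q : E) (hp : p ≠ 0) (hq : q ≠ 0)
    (h : ∀ v : Place Kt E, (m : ℤ) ∣ v.ord p - v.ord q) : U2 Kt E m (p / q) := by
  intro O' hO'
  let v : Place Kt E := ⟨O', hO'.1, hO'.2.1, hO'.2.2⟩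
  obtain ⟨k, hk⟩ := h v
  obtain ⟨ϖ, hϖ⟩ := ffp_exists_irreducible v
  have hϖ0 : ((ϖ : v.toValuationSubring) : E) ≠ 0 := by
    simpa [ne_eq, ZeroMemClass.coe_eq_zero] using hϖ.ne_zero
  have hf0 : ((ϖ : v.toValuationSubring) : E) ^ k ≠ 0 := zpow_ne_zero _ hϖ0
  have hfm0 : (((ϖ : v.toValuationSubring) : E) ^ k) ^ m ≠ 0 := pow_ne_zero _ hf0
  have hordf : v.ord ((((ϖ : v.toValuationSubring) : E) ^ k) ^ m) = (m : ℤ) * k := by
    rw [← zpow_natCast, ← zpow_mul, v.ord_zpow, v.ord_coe_irreducible hϖ]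
    ring
  have hordu : v.ord (p / q) = (m : ℤ) * k := by
    rw [div_eq_mul_inv, v.ord_mul hp (inv_ne_zero hq), v.ord_inv]
    omega
  refine ⟨((ϖ : v.toValuationSubring) : E) ^ k, hf0, ?_, ?_⟩
  · have : 0 ≤ v.ord (p / q / (((ϖ : v.toValuationSubring) : E) ^ k) ^ m) := by
      rw [div_eq_mul_inv (p / q), v.ord_mul (div_ne_zero hp hq) (inv_ne_zero hfm0), v.ord_inv,
        hordf, hordu]
      omega
    exact ffp_mem_of_ord_nonneg v this
  · have : 0 ≤ v.ord ((((ϖ : v.toValuationSubring) : E) ^ k) ^ m / (p / q)) := by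
      rw [div_eq_mul_inv, v.ord_mul hfm0 (inv_ne_zero (div_ne_zero hp hq)), v.ord_inv,
        hordf, hordu]
      omega
    exact ffp_mem_of_ord_nonneg v this

/-- The scalar tower `O → Kt → E` (typeclass search is too slow to find it). -/
theorem isScalarTower_OE (O : ValuationSubring Kt) (E : IntermediateField Kt (LaurentSeries Kt)) :
    IsScalarTower ↥O Kt ↥E :=
  IsScalarTower.of_algebraMap_eq fun _ => rfl

theorem coe_algebraMap_OE (O : ValuationSubring Kt) (E : IntermediateField Kt (LaurentSeries Kt))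
    (a : O) : ((algebraMap ↥O ↥E a : E) : LaurentSeries Kt) = HahnSeries.C ((a : O) : Kt) := by
  show algebraMap Kt (LaurentSeries Kt) ((a : O) : Kt) = _
  exact algebraMap_eq_C _

/-- **The instantiation step.**  The abstract core, a two-chart model over the Gauss valuation
ring, `Kt` algebraically closed in `E`, and invertibility of the exponents give `(CL)`. -/
theorem clStmt_of_core (ℓ : ℕ) {π : O} (hπ : IsUnif O π) (hE : E ≤ fracField O)
    (hcore : CoreB ↥O Kt ↥E)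
    (hmodel : ∃ (t : E) (B0 B1 : Subalgebra ↥O ↥E),
      TwoChartModel ↥O Kt ↥E π t B0 B1 (gaussVS hπ E hE))
    (halg : ∀ x : E, IsIntegral Kt x → ∃ c : Kt, algebraMap Kt E c = x)
    (hinv : ∀ m : ℕ, ¬ ℓ ∣ m → ∃ minv : O, (m : O) * minv = 1) :
    CLStmt O E ℓ := by
  intro P Q hP hQ hPQ hP0 m hm hplaces
  have hm0 : 0 < m := Nat.pos_of_ne_zero fun h => hm (h ▸ dvd_zero ℓ)
  have hQ0 : redL O Q ≠ 0 := fun h => hP0 (hPQ.trans h)
  have hPne : embK O P ≠ 0 := fun h =>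
    hP0 (by rw [(embK_eq_zero_iff O P).mp h, map_zero])
  have hQne : embK O Q ≠ 0 := fun h =>
    hQ0 (by rw [(embK_eq_zero_iff O Q).mp h, map_zero])
  set p : E := ⟨coeffMap O.subtype P, hP⟩ with hp
  set q : E := ⟨coeffMap O.subtype Q, hQ⟩ with hq
  have hp0 : p ≠ 0 := fun h => hPne (congrArg Subtype.val h)
  have hq0 : q ≠ 0 := fun h => hQne (congrArg Subtype.val h)
  -- (U1)
  have hred : redL O (P - Q) = 0 := by
    rw [map_sub, sub_eq_zero]; exact hPQ
  obtain ⟨W, hW⟩ := (redL_eq_zero_iff hπ (P - Q)).mp hred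
  have hπE : algebraMap ↥O ↥E π ≠ 0 := by
    intro h
    have h1 := congrArg Subtype.val h
    rw [coe_algebraMap_OE] at h1
    exact piK_ne_zero hπ h1
  have hU1 : U1 ↥O ↥E π (gaussVS hπ E hE) (p / q) := by
    refine ⟨(p - q) / algebraMap ↥O ↥E π / q, ?_, ?_⟩
    · rw [mem_gaussVS_iff]
      refine ⟨W, Q, hQ0, ?_⟩
      have h1 : (((p - q) / algebraMap ↥O ↥E π / q : E) : LaurentSeries Kt)
          = (embK O P - embK O Q) / HahnSeries.C ((π : O) : Kt) / embK O Q := by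
        push_cast
        rw [coe_algebraMap_OE]
        rfl
      rw [h1, ← map_sub, hW, map_mul, embK_C]
      have hC : (HahnSeries.C ((π : O) : Kt) : LaurentSeries Kt) ≠ 0 := piK_ne_zero hπ
      field_simp
    · field_simp
  obtain ⟨minv, hminv⟩ := hinv m hm
  obtain ⟨t, B0, B1, hmod⟩ := hmodel
  obtain ⟨s, hs0, hint⟩ := hcore π t B0 B1 _ hmod m hm0 minv hminv (p / q) hU1
    (u2_of_places m p q hp0 hq0 hplaces)
  obtain ⟨c, hc⟩ := halg _ hint
  have hsu : s ^ m * (p / q) ≠ 0 := mul_ne_zero (pow_ne_zero _ hs0) (div_ne_zero hp0 hq0)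
  have hc0 : c ≠ 0 := by
    rintro rfl
    rw [map_zero] at hc
    exact hsu hc.symm
  have hcE : algebraMap Kt E c ≠ 0 := by rw [hc]; exact hsu
  refine ⟨c⁻¹, s⁻¹, inv_ne_zero hc0, ?_⟩
  rw [Algebra.smul_def, map_inv₀, hc, inv_pow]
  field_simp

/-- The abstract core at `(O, Kt, E)` (a generic wrapper: typeclass search at the concrete
number-field types is slow, so concrete statements should only mention `CoreBAt O E`). -/
def CoreBAt (O : ValuationSubring Kt) (E : IntermediateField Kt (LaurentSeries Kt)) : Prop :=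
  CoreB ↥O Kt ↥E

/-- **Deliverable of MODEL** at `(O, E)`: a uniformiser, `E ⊂ Frac O((q))`, and a two-chart model
whose valuation ring is the Gauss valuation ring of `E`. -/
def HasModel (O : ValuationSubring Kt) (E : IntermediateField Kt (LaurentSeries Kt)) : Prop :=
  ∃ (π : O) (hπ : IsUnif O π) (hE : E ≤ fracField O) (t : E) (B0 B1 : Subalgebra ↥O ↥E),
    TwoChartModel ↥O Kt ↥E π t B0 B1 (gaussVS hπ E hE)

/-- `Kt` is algebraically closed in `E`. -/
def AlgClosedIn (E : IntermediateField Kt (LaurentSeries Kt)) : Prop :=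
  ∀ x : E, IsIntegral Kt x → ∃ c : Kt, algebraMap Kt E c = x

theorem clStmt_of_hasModel (ℓ : ℕ) (hcore : CoreBAt O E) (hmodel : HasModel O E)
    (halg : AlgClosedIn E) (hinv : ∀ m : ℕ, ¬ ℓ ∣ m → ∃ minv : O, (m : O) * minv = 1) :
    CLStmt O E ℓ := by
  obtain ⟨π, hπ, hE, t, B0, B1, hmod⟩ := hmodel
  exact clStmt_of_core ℓ hπ hE hcore ⟨t, B0, B1, hmod⟩ halg hinv

end Abstract

section Inverse

open Fermat.Agent.RED.Interface4

/-- `ℓ ∤ m` ⇒ `m` is invertible in `A`. -/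
theorem inv_natCast_mem {ℓ : ℕ} (hℓ : ℓ.Prime) {A : ValuationSubring Qbar}
    (hA : A.LiesOverPrime ℓ) (m : ℕ) (hm : ¬ ℓ ∣ m) : ((m : Qbar))⁻¹ ∈ A := by
  have hcop : Nat.Coprime m ℓ := ((Nat.Prime.coprime_iff_not_dvd hℓ).mpr hm).symm
  have hbez : (m : ℤ) * Nat.gcdA m ℓ + (ℓ : ℤ) * Nat.gcdB m ℓ = 1 := by
    have := Nat.gcd_eq_gcd_ab m ℓ
    rw [hcop.gcd_eq_one] at this
    exact_mod_cast this.symm
  have hℓv : A.valuation (ℓ : Qbar) < 1 := (A.mem_nonunits_iff).mp hA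
  by_contra hinv
  have hmv : A.valuation (m : Qbar) < 1 := by
    have h1 : ¬ A.valuation ((m : Qbar))⁻¹ ≤ 1 := fun h => hinv ((A.valuation_le_one_iff _).mp h)
    rw [not_le, map_inv₀] at h1
    have hm0 : A.valuation (m : Qbar) ≠ 0 := by
      intro h0
      rw [h0, inv_zero] at h1
      exact not_lt.mpr zero_le h1
    exact (one_lt_inv₀ (zero_lt_iff.mpr hm0)).mp h1
  have ha : A.valuation ((Nat.gcdA m ℓ : ℤ) : Qbar) ≤ 1 :=
    (A.valuation_le_one_iff _).mpr (_root_.intCast_mem A _)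
  have hb : A.valuation ((Nat.gcdB m ℓ : ℤ) : Qbar) ≤ 1 :=
    (A.valuation_le_one_iff _).mpr (_root_.intCast_mem A _)
  have h1 : (1 : Qbar) = (m : Qbar) * ((Nat.gcdA m ℓ : ℤ) : Qbar) +
      (ℓ : Qbar) * ((Nat.gcdB m ℓ : ℤ) : Qbar) := by
    exact_mod_cast hbez.symm
  have h2 : A.valuation (1 : Qbar) < 1 := by
    rw [h1]
    refine lt_of_le_of_lt (A.valuation.map_add _ _) (max_lt ?_ ?_)
    · rw [map_mul]
      exact lt_of_le_of_lt (mul_le_of_le_one_right' ha) hmv
    · rw [map_mul]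
      exact lt_of_le_of_lt (mul_le_of_le_one_right' hb) hℓv
  rw [map_one] at h2
  exact lt_irrefl _ h2

/-- `ℓ ∤ m` ⇒ `m` is invertible in `A ∩ K`. -/
theorem exists_inv_of_not_dvd {ℓ : ℕ} (hℓ : ℓ.Prime) {A : ValuationSubring Qbar}
    (hA : A.LiesOverPrime ℓ) (K : IntermediateField ℚ Qbar) (m : ℕ) (hm : ¬ ℓ ∣ m) :
    ∃ minv : AK A K, (m : AK A K) * minv = 1 := by
  have hmem : ((m : K))⁻¹ ∈ AK A K := by
    show algebraMap K Qbar ((m : K))⁻¹ ∈ A
    rw [map_inv₀, map_natCast]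
    exact inv_natCast_mem hℓ hA m hm
  have hm0 : (m : K) ≠ 0 := by
    have : m ≠ 0 := fun h => hm (h ▸ dvd_zero ℓ)
    exact_mod_cast this
  refine ⟨⟨((m : K))⁻¹, hmem⟩, Subtype.ext ?_⟩
  push_cast
  exact mul_inv_cancel₀ hm0

end Inverse

/-- `CLNum` is `CLStmt` for `(K, AK A K, FK M K)`. -/
theorem clNum_iff (ℓ M : ℕ) (A : ValuationSubring Interface4.Qbar)
    (K : IntermediateField ℚ Interface4.Qbar) :
    Interface4.CLNum ℓ M A K ↔ CLStmt (Interface4.AK A K) (Interface4.FK M K) ℓ :=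
  Iff.rfl

open Fermat.Agent.RED.Interface4 Fermat.Agent.RED.InterfaceGe4 in
/-- **NUM from CORE + MODEL.**  If over every number field `K ⊇ K₀` the abstract core holds, MODEL
delivers a two-chart model over the Gauss valuation ring and `K` is algebraically closed in
`K·F_M`, then `NumStep ℓ M A`. -/
theorem numStep_of_models {ℓ : ℕ} (hℓ : ℓ.Prime) (M : ℕ) {A : ValuationSubring Qbar}
    (hA : A.LiesOverPrime ℓ)
    (h : ∃ K₀ : IntermediateField ℚ Qbar, FiniteDimensional ℚ K₀ ∧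
      ∀ K : IntermediateField ℚ Qbar, FiniteDimensional ℚ K → K₀ ≤ K →
        CoreBAt (AK A K) (FK M K) ∧ HasModel (AK A K) (FK M K) ∧ AlgClosedIn (FK M K)) :
    NumStep ℓ M A := by
  obtain ⟨K₀, hK₀, hK⟩ := h
  refine ⟨K₀, hK₀, fun K hKfd hle => ?_⟩
  obtain ⟨hcore, hmodel, halg⟩ := hK K hKfd hle
  exact (clNum_iff ℓ M A K).mpr
    (clStmt_of_hasModel ℓ hcore hmodel halg (exists_inv_of_not_dvd hℓ hA K))

end Fermat.Agent.RED.NumInst4
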