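/-
Program H (S18), MODEL assembly (helper3): transfer of the local smoothness condition between the
two charts `B₀ = chart R t` and `B₁ = chart R t⁻¹`.

A maximal ideal `x ∋ π` of `B₁` with `t⁻¹ ∉ x` "is" a maximal ideal `x'` of `B₀` (same local ring
inside `F`); the elementwise smoothness condition `SmoothAt` (`= Interface26.LocPrin` with
`π` coming from `R`, the literal `smooth0/smooth1` shape of `CoreIface24.TwoChartModel`) at `x'`
gives it at `x`.  The only extra input is that the residue field `B₁/x` is a torsion group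
(`hfin`, true because it is a finite field).
-/
import Mathlib
import Fermat.Agent.RED.PUR.ChartGeneric22

set_option autoImplicit false
set_option linter.style.haveILetI false

namespace Fermat.Agent.RED.ChartTransfer3

open Fermat.Agent.RED.PUR.ChartGeneric22

variable {R F : Type*} [CommRing R] [Field F] [Algebra R F]

/-- The local smoothness condition of `TwoChartModel.smooth0/1` at a single ideal. -/
def SmoothAt (π : R) (B : Subalgebra R F) (x : Ideal B) : Prop :=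
  ∃ s ∈ x, ∀ y ∈ x, ∃ d : B, d ∉ x ∧ d * y ∈ Ideal.span {algebraMap R B π, s}

theorem pow_mul_mem_of_le {B : Subalgebra R F} {s b : F} (hs : s ∈ B) {k k' : ℕ} (hk : k ≤ k')
    (h : s ^ k * b ∈ B) : s ^ k' * b ∈ B := by
  obtain ⟨j, rfl⟩ := Nat.exists_eq_add_of_le hk
  rw [add_comm, pow_add, mul_assoc]
  exact mul_mem (pow_mem hs j) h

section Transfer

variable (π : R) {t : F}

/-- The contraction to `B₀` of an ideal `x` of `B₁`. -/
def contract (t : F) (x : Ideal (chart R t⁻¹)) : Set (chart R t) :=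
  {b | ∃ (k : ℕ) (h : t⁻¹ ^ k * (b : F) ∈ chart R t⁻¹), (⟨_, h⟩ : chart R t⁻¹) ∈ x}

variable {x : Ideal (chart R t⁻¹)}

theorem tinv_pow_notMem (hx : x.IsPrime)
    (htx : (⟨t⁻¹, self_mem_chart t⁻¹⟩ : chart R t⁻¹) ∉ x) (k : ℕ) :
    (⟨t⁻¹ ^ k, pow_mem (self_mem_chart t⁻¹) k⟩ : chart R t⁻¹) ∉ x := by
  intro h
  have : (⟨t⁻¹, self_mem_chart t⁻¹⟩ : chart R t⁻¹) ^ k ∈ x := h
  exact htx (hx.mem_of_pow_mem k this)

/-- independence of the exponent -/
theorem mem_of_mem_contract (hx : x.IsPrime)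
    (htx : (⟨t⁻¹, self_mem_chart t⁻¹⟩ : chart R t⁻¹) ∉ x) {b : chart R t}
    (hb : b ∈ contract t x) {k' : ℕ} (h' : t⁻¹ ^ k' * (b : F) ∈ chart R t⁻¹) :
    (⟨_, h'⟩ : chart R t⁻¹) ∈ x := by
  obtain ⟨k, h, hk⟩ := hb
  have h1 : (⟨t⁻¹ ^ k, pow_mem (self_mem_chart t⁻¹) k⟩ : chart R t⁻¹) *
      (⟨_, h'⟩ : chart R t⁻¹) ∈ x := by
    have h2 : (⟨t⁻¹ ^ k, pow_mem (self_mem_chart t⁻¹) k⟩ : chart R t⁻¹) * ⟨_, h'⟩ =
        (⟨t⁻¹ ^ k', pow_mem (self_mem_chart t⁻¹) k'⟩ : chart R t⁻¹) * ⟨_, h⟩ := by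
      apply Subtype.ext
      show t⁻¹ ^ k * (t⁻¹ ^ k' * (b : F)) = t⁻¹ ^ k' * (t⁻¹ ^ k * (b : F))
      ring
    rw [h2]
    exact x.mul_mem_left _ hk
  rcases hx.mem_or_mem h1 with h3 | h3
  · exact absurd h3 (tinv_pow_notMem hx htx k)
  · exact h3

/-- `t⁻¹^k * b ∈ B₁` for `k` large, `b ∈ B₀`. -/
theorem exists_tinv_pow_mul_mem (ht : t ≠ 0) (b : chart R t) :
    ∃ k : ℕ, t⁻¹ ^ k * (b : F) ∈ chart R t⁻¹ := by
  have hb : (b : F) ∈ chart R (t⁻¹)⁻¹ := by rw [inv_inv]; exact b.2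
  exact exists_pow_mul_mem_chart (inv_ne_zero ht) hb

/-- The contraction as an ideal of `B₀`. -/
def contractIdeal (ht : t ≠ 0) (x : Ideal (chart R t⁻¹)) : Ideal (chart R t) where
  carrier := contract t x
  zero_mem' := by
    have h0 : t⁻¹ ^ 0 * (((0 : chart R t)) : F) ∈ chart R t⁻¹ := by
      simp only [pow_zero, ZeroMemClass.coe_zero, mul_zero]
      exact zero_mem _
    refine ⟨0, h0, ?_⟩
    have : (⟨_, h0⟩ : chart R t⁻¹) = 0 := by
      apply Subtype.ext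
      simp
    rw [this]
    exact x.zero_mem
  add_mem' := by
    rintro a b ⟨k, h, hk⟩ ⟨k', h', hk'⟩
    have ha : t⁻¹ ^ (k + k') * (a : F) ∈ chart R t⁻¹ :=
      pow_mul_mem_of_le (self_mem_chart t⁻¹) (Nat.le_add_right k k') h
    have hb : t⁻¹ ^ (k + k') * (b : F) ∈ chart R t⁻¹ :=
      pow_mul_mem_of_le (self_mem_chart t⁻¹) (Nat.le_add_left k' k) h'
    refine ⟨k + k', ?_, ?_⟩
    · show t⁻¹ ^ (k + k') * ((a : F) + (b : F)) ∈ chart R t⁻¹
      rw [mul_add]; exact add_mem ha hb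
    · have e1 : (⟨t⁻¹ ^ (k + k') * (a : F), ha⟩ : chart R t⁻¹) =
          ⟨t⁻¹ ^ k', pow_mem (self_mem_chart t⁻¹) k'⟩ * ⟨_, h⟩ := by
        apply Subtype.ext
        show t⁻¹ ^ (k + k') * (a : F) = t⁻¹ ^ k' * (t⁻¹ ^ k * (a : F))
        rw [pow_add]; ring
      have e2 : (⟨t⁻¹ ^ (k + k') * (b : F), hb⟩ : chart R t⁻¹) =
          ⟨t⁻¹ ^ k, pow_mem (self_mem_chart t⁻¹) k⟩ * ⟨_, h'⟩ := by
        apply Subtype.ext
        show t⁻¹ ^ (k + k') * (b : F) = t⁻¹ ^ k * (t⁻¹ ^ k' * (b : F))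
        rw [pow_add]; ring
      have e3 : (⟨t⁻¹ ^ (k + k') * (((a + b : chart R t)) : F), by
          show t⁻¹ ^ (k + k') * ((a : F) + (b : F)) ∈ chart R t⁻¹
          rw [mul_add]; exact add_mem ha hb⟩ : chart R t⁻¹) = ⟨_, ha⟩ + ⟨_, hb⟩ := by
        apply Subtype.ext
        show t⁻¹ ^ (k + k') * ((a : F) + (b : F)) = _ + _
        rw [mul_add]
      rw [e3, e1, e2]
      exact x.add_mem (x.mul_mem_left _ hk) (x.mul_mem_left _ hk')
  smul_mem' := by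
    rintro c b ⟨k, h, hk⟩
    obtain ⟨j, hj⟩ := exists_tinv_pow_mul_mem ht c
    have hcb : t⁻¹ ^ (j + k) * ((c : F) * (b : F)) ∈ chart R t⁻¹ := by
      have : t⁻¹ ^ (j + k) * ((c : F) * (b : F)) = (t⁻¹ ^ j * (c : F)) * (t⁻¹ ^ k * (b : F)) := by
        rw [pow_add]; ring
      rw [this]; exact mul_mem hj h
    refine ⟨j + k, hcb, ?_⟩
    have e1 : (⟨_, hcb⟩ : chart R t⁻¹) = ⟨_, hj⟩ * ⟨_, h⟩ := by
      apply Subtype.ext
      show t⁻¹ ^ (j + k) * ((c : F) * (b : F)) = (t⁻¹ ^ j * (c : F)) * (t⁻¹ ^ k * (b : F))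
      rw [pow_add]; ring
    have e2 : (⟨t⁻¹ ^ (j + k) * (((c • b : chart R t)) : F), hcb⟩ : chart R t⁻¹) =
        ⟨_, hj⟩ * ⟨_, h⟩ := e1
    rw [e2]
    exact x.mul_mem_left _ hk

theorem mem_contractIdeal_iff (ht : t ≠ 0) {b : chart R t} :
    b ∈ contractIdeal ht x ↔ b ∈ contract t x := Iff.rfl

theorem algebraMap_mem_contractIdeal (ht : t ≠ 0) {r : R}
    (hr : algebraMap R (chart R t⁻¹) r ∈ x) : algebraMap R (chart R t) r ∈ contractIdeal ht x := by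
  have h0 : t⁻¹ ^ 0 * ((algebraMap R (chart R t) r : chart R t) : F) ∈ chart R t⁻¹ := by
    rw [pow_zero, one_mul]
    exact (chart R t⁻¹).algebraMap_mem r
  refine ⟨0, h0, ?_⟩
  have : (⟨_, h0⟩ : chart R t⁻¹) = algebraMap R (chart R t⁻¹) r := by
    apply Subtype.ext
    show t⁻¹ ^ 0 * ((algebraMap R (chart R t) r : chart R t) : F) = _
    rw [pow_zero, one_mul]
    rfl
  rw [this]
  exact hr

theorem one_notMem_contractIdeal (ht : t ≠ 0) (hx : x.IsPrime)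
    (htx : (⟨t⁻¹, self_mem_chart t⁻¹⟩ : chart R t⁻¹) ∉ x) :
    (1 : chart R t) ∉ contractIdeal ht x := by
  intro h1
  have h0 : t⁻¹ ^ 0 * (((1 : chart R t)) : F) ∈ chart R t⁻¹ := by
    simp only [pow_zero, OneMemClass.coe_one, mul_one]
    exact one_mem _
  have h2 := mem_of_mem_contract hx htx h1 h0
  apply hx.ne_top
  rw [Ideal.eq_top_iff_one]
  have : (⟨_, h0⟩ : chart R t⁻¹) = 1 := by
    apply Subtype.ext
    simp
  rwa [this] at h2

/-- a congruence `a ≡ 1 mod x` is stable under powers -/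
theorem pow_sub_one_mem {A : Type*} [CommRing A] {I : Ideal A} {a : A} (h : a - 1 ∈ I) (n : ℕ) :
    a ^ n - 1 ∈ I := by
  have hd : a - 1 ∣ a ^ n - 1 := by
    simpa using sub_dvd_pow_sub_pow a 1 n
  obtain ⟨c, hc⟩ := hd
  rw [hc]
  exact I.mul_mem_right _ h

/-- The contraction of a maximal ideal `x ∌ t⁻¹` of `B₁` with torsion residue field is a maximal
ideal of `B₀`. -/
theorem contractIdeal_isMaximal (ht : t ≠ 0) (hx : x.IsMaximal)
    (htx : (⟨t⁻¹, self_mem_chart t⁻¹⟩ : chart R t⁻¹) ∉ x)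
    (hfin : ∀ b : chart R t⁻¹, b ∉ x → ∃ n : ℕ, 0 < n ∧ b ^ n - 1 ∈ x) :
    (contractIdeal ht x).IsMaximal := by
  have hxp := hx.isPrime
  rw [Ideal.isMaximal_iff]
  refine ⟨one_notMem_contractIdeal ht hxp htx, ?_⟩
  intro J b hJ hb hbJ
  obtain ⟨k, hk⟩ := exists_tinv_pow_mul_mem ht b
  set b₁ : chart R t⁻¹ := ⟨_, hk⟩ with hb₁
  have hb₁x : b₁ ∉ x := fun h => hb ⟨k, hk, h⟩
  obtain ⟨n₁, hn₁, h1⟩ := hfin b₁ hb₁x
  obtain ⟨n₂, hn₂, h2⟩ := hfin _ htx
  set N := n₁ * n₂ with hN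
  have hNpos : 0 < N := Nat.mul_pos hn₁ hn₂
  -- `b₁^N ≡ 1` and `t⁻¹^(k N) ≡ 1`
  have h1' : b₁ ^ N - 1 ∈ x := by
    rw [hN, pow_mul]; exact pow_sub_one_mem h1 n₂
  have h2' : (⟨t⁻¹, self_mem_chart t⁻¹⟩ : chart R t⁻¹) ^ (k * N) - 1 ∈ x := by
    rw [hN, mul_comm n₁ n₂, ← mul_assoc, mul_comm k n₂, mul_assoc, pow_mul]
    exact pow_sub_one_mem h2 _
  -- `b^N - 1 ∈ x'`
  have hkey : b ^ N - 1 ∈ contractIdeal ht x := by
    have hmem : t⁻¹ ^ (k * N) * (((b ^ N - 1 : chart R t)) : F) ∈ chart R t⁻¹ := by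
      have : t⁻¹ ^ (k * N) * (((b ^ N - 1 : chart R t)) : F) =
          (t⁻¹ ^ k * (b : F)) ^ N - t⁻¹ ^ (k * N) := by
        push_cast
        rw [mul_pow, ← pow_mul]; ring
      rw [this]
      exact sub_mem (pow_mem hk N) (pow_mem (self_mem_chart t⁻¹) _)
    refine ⟨k * N, hmem, ?_⟩
    have e : (⟨_, hmem⟩ : chart R t⁻¹) =
        (b₁ ^ N - 1) - ((⟨t⁻¹, self_mem_chart t⁻¹⟩ : chart R t⁻¹) ^ (k * N) - 1) := by
      apply Subtype.ext
      show t⁻¹ ^ (k * N) * (((b ^ N - 1 : chart R t)) : F) = _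
      push_cast
      rw [hb₁]
      simp only [mul_pow, ← pow_mul]
      ring
    rw [e]
    exact x.sub_mem h1' h2'
  -- `1 = b * b^(N-1) - (b^N - 1)`
  have h3 : (1 : chart R t) = b * b ^ (N - 1) - (b ^ N - 1) := by
    have : b * b ^ (N - 1) = b ^ N := by
      rw [← pow_succ', Nat.sub_add_cancel hNpos]
    rw [this]; ring
  rw [h3]
  exact J.sub_mem (J.mul_mem_right _ hbJ) (hJ hkey)

/-- **Transfer of smoothness**: from the contraction `x'` (in `B₀`) to `x` (in `B₁`). -/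
theorem smoothAt_of_smoothAt_contractIdeal (ht : t ≠ 0) (hx : x.IsPrime)
    (htx : (⟨t⁻¹, self_mem_chart t⁻¹⟩ : chart R t⁻¹) ∉ x)
    (h : SmoothAt π (chart R t) (contractIdeal ht x)) : SmoothAt π (chart R t⁻¹) x := by
  obtain ⟨s', hs', hgen⟩ := h
  obtain ⟨k₀, hk₀⟩ := exists_tinv_pow_mul_mem ht s'
  have hs''x : (⟨_, hk₀⟩ : chart R t⁻¹) ∈ x := mem_of_mem_contract hx htx hs' hk₀
  refine ⟨⟨_, hk₀⟩, hs''x, ?_⟩
  intro y hy
  -- `y₀ := t^j y ∈ B₀`
  obtain ⟨j, hj⟩ := exists_pow_mul_mem_chart (R := R) ht y.2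
  set y₀ : chart R t := ⟨_, hj⟩ with hy₀
  have hy₀x : y₀ ∈ contractIdeal ht x := by
    have hm : t⁻¹ ^ j * (y₀ : F) ∈ chart R t⁻¹ := by
      have : t⁻¹ ^ j * (y₀ : F) = (y : F) := by
        rw [hy₀]
        show t⁻¹ ^ j * (t ^ j * (y : F)) = (y : F)
        rw [← mul_assoc, ← mul_pow, inv_mul_cancel₀ ht, one_pow, one_mul]
      rw [this]; exact y.2
    refine ⟨j, hm, ?_⟩
    have : (⟨_, hm⟩ : chart R t⁻¹) = y := by
      apply Subtype.ext
      show t⁻¹ ^ j * (t ^ j * (y : F)) = (y : F)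
      rw [← mul_assoc, ← mul_pow, inv_mul_cancel₀ ht, one_pow, one_mul]
    rw [this]; exact hy
  obtain ⟨d₀, hd₀, hd₀y⟩ := hgen y₀ hy₀x
  rw [Ideal.mem_span_pair] at hd₀y
  obtain ⟨a, b, hab⟩ := hd₀y
  obtain ⟨ka, hka⟩ := exists_tinv_pow_mul_mem ht a
  obtain ⟨kb, hkb⟩ := exists_tinv_pow_mul_mem ht b
  obtain ⟨kd, hkd⟩ := exists_tinv_pow_mul_mem ht d₀
  set N := kd + j + ka + kb + k₀ with hN
  have hdm : t⁻¹ ^ (N - j) * (d₀ : F) ∈ chart R t⁻¹ :=
    pow_mul_mem_of_le (self_mem_chart t⁻¹) (by omega) hkd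
  have ham : t⁻¹ ^ N * (a : F) ∈ chart R t⁻¹ :=
    pow_mul_mem_of_le (self_mem_chart t⁻¹) (by omega) hka
  have hbm : t⁻¹ ^ (N - k₀) * (b : F) ∈ chart R t⁻¹ :=
    pow_mul_mem_of_le (self_mem_chart t⁻¹) (by omega) hkb
  refine ⟨⟨_, hdm⟩, ?_, ?_⟩
  · intro hdx
    exact hd₀ ⟨N - j, hdm, hdx⟩
  · rw [Ideal.mem_span_pair]
    refine ⟨⟨_, ham⟩, ⟨_, hbm⟩, ?_⟩
    apply Subtype.ext
    have habF : (a : F) * algebraMap R F π + (b : F) * (s' : F) = (d₀ : F) * (t ^ j * (y : F)) := by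
      have := congrArg (fun z : chart R t => (z : F)) hab
      simpa using this
    show t⁻¹ ^ N * (a : F) * algebraMap R F π + t⁻¹ ^ (N - k₀) * (b : F) * (t⁻¹ ^ k₀ * (s' : F)) =
      t⁻¹ ^ (N - j) * (d₀ : F) * (y : F)
    have hNj : t⁻¹ ^ N = t⁻¹ ^ (N - j) * t⁻¹ ^ j := by
      rw [← pow_add]; congr 1; omega
    have hNk : t⁻¹ ^ N = t⁻¹ ^ (N - k₀) * t⁻¹ ^ k₀ := by
      rw [← pow_add]; congr 1; omega
    have hcancel : t⁻¹ ^ j * t ^ j = 1 := by
      rw [← mul_pow, inv_mul_cancel₀ ht, one_pow]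
    calc t⁻¹ ^ N * (a : F) * algebraMap R F π + t⁻¹ ^ (N - k₀) * (b : F) * (t⁻¹ ^ k₀ * (s' : F))
        = t⁻¹ ^ N * ((a : F) * algebraMap R F π + (b : F) * (s' : F)) := by
          rw [mul_add, hNk]; ring
      _ = t⁻¹ ^ N * ((d₀ : F) * (t ^ j * (y : F))) := by rw [habF]
      _ = t⁻¹ ^ (N - j) * (d₀ : F) * (y : F) * (t⁻¹ ^ j * t ^ j) := by rw [hNj]; ring
      _ = t⁻¹ ^ (N - j) * (d₀ : F) * (y : F) := by rw [hcancel, mul_one]

/-- **Chart transfer.** If `B₀` is smooth at all maximal ideals containing `π`, then `B₁` is smooth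
at every maximal ideal `x ∋ π` with `t⁻¹ ∉ x` and torsion residue field. -/
theorem smoothAt_chart_inv (ht : t ≠ 0)
    (h0 : ∀ x' : Ideal (chart R t), x'.IsMaximal → algebraMap R (chart R t) π ∈ x' →
      SmoothAt π (chart R t) x')
    (hx : x.IsMaximal) (hπ : algebraMap R (chart R t⁻¹) π ∈ x)
    (htx : (⟨t⁻¹, self_mem_chart t⁻¹⟩ : chart R t⁻¹) ∉ x)
    (hfin : ∀ b : chart R t⁻¹, b ∉ x → ∃ n : ℕ, 0 < n ∧ b ^ n - 1 ∈ x) :
    SmoothAt π (chart R t⁻¹) x :=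
  smoothAt_of_smoothAt_contractIdeal π ht hx.isPrime htx
    (h0 _ (contractIdeal_isMaximal ht hx htx hfin) (algebraMap_mem_contractIdeal ht hπ))

end Transfer

/-- A finite-type algebra over `R` modulo a maximal ideal containing `π`, where `R/π` is a finite
field, is a finite field. -/
theorem finite_quotient_of_finiteType {R B : Type*} [CommRing R] [CommRing B] [Algebra R B]
    [Algebra.FiniteType R B] (π : R) (hπmax : (Ideal.span {π} : Ideal R).IsMaximal)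
    [Finite (R ⧸ (Ideal.span {π} : Ideal R))] (x : Ideal B) [hx : x.IsMaximal]
    (hπx : algebraMap R B π ∈ x) : Finite (B ⧸ x) := by
  letI : Field (R ⧸ (Ideal.span {π} : Ideal R)) := Ideal.Quotient.field _
  letI : Field (B ⧸ x) := Ideal.Quotient.field _
  have hle : (Ideal.span {π} : Ideal R) ≤ RingHom.ker ((Ideal.Quotient.mk x).comp (algebraMap R B)) := by
    rw [Ideal.span_singleton_le_iff_mem, RingHom.mem_ker, RingHom.comp_apply]
    exact Ideal.Quotient.eq_zero_iff_mem.mpr hπx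
  let φ : (R ⧸ (Ideal.span {π} : Ideal R)) →+* B ⧸ x :=
    Ideal.Quotient.lift _ ((Ideal.Quotient.mk x).comp (algebraMap R B)) (fun a ha => hle ha)
  have hcomp : φ.comp (Ideal.Quotient.mk _) = (Ideal.Quotient.mk x).comp (algebraMap R B) := by
    ext a; simp [φ]
  have h1 : ((Ideal.Quotient.mk x).comp (algebraMap R B)).FiniteType := by
    apply RingHom.FiniteType.comp
    · exact RingHom.FiniteType.of_surjective _ Ideal.Quotient.mk_surjective
    · exact RingHom.finiteType_algebraMap.mpr inferInstance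
  have h2 : φ.FiniteType := by
    rw [← hcomp] at h1
    exact RingHom.FiniteType.of_comp_finiteType h1
  have h3 : φ.Finite := RingHom.finite_iff_finiteType_of_isJacobsonRing.mpr h2
  letI := φ.toAlgebra
  have h4 : Module.Finite (R ⧸ (Ideal.span {π} : Ideal R)) (B ⧸ x) := h3
  exact Module.finite_of_finite (R ⧸ (Ideal.span {π} : Ideal R))

/-- In a finite residue field every nonzero element is a root of unity. -/
theorem exists_pow_sub_one_mem_of_finite {B : Type*} [CommRing B] (x : Ideal B) [hx : x.IsMaximal]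
    [Finite (B ⧸ x)] (b : B) (hb : b ∉ x) : ∃ n : ℕ, 0 < n ∧ b ^ n - 1 ∈ x := by
  letI : Field (B ⧸ x) := Ideal.Quotient.field _
  letI : Fintype (B ⧸ x) := Fintype.ofFinite _
  have hb0 : Ideal.Quotient.mk x b ≠ 0 := fun h => hb (Ideal.Quotient.eq_zero_iff_mem.mp h)
  have h1 := FiniteField.pow_card_sub_one_eq_one (Ideal.Quotient.mk x b) hb0
  have hcard : 1 < Fintype.card (B ⧸ x) := Fintype.one_lt_card
  refine ⟨Fintype.card (B ⧸ x) - 1, by omega, ?_⟩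
  rw [← Ideal.Quotient.eq_zero_iff_mem, map_sub, map_pow, map_one, h1, sub_self]


section Smooth1

variable {R F : Type*} [CommRing R] [Field F] [Algebra R F]

/-- **`smooth1` from `smooth0` and the cusps at infinity.**  If `B₀ = chart R t` is smooth at all
maximal ideals containing `π`, and `B₁ = chart R t⁻¹` is smooth at the maximal ideals containing
`π` and `t⁻¹`, then `B₁` is smooth at all maximal ideals containing `π` (residue field `R/π` finite,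
`B₁` of finite type over `R`). -/
theorem smooth1_of_smooth0 (π : R) {t : F} (ht : t ≠ 0)
    (hπmax : (Ideal.span {π} : Ideal R).IsMaximal) [Finite (R ⧸ (Ideal.span {π} : Ideal R))]
    [Algebra.FiniteType R (chart R t⁻¹)]
    (h0 : ∀ x' : Ideal (chart R t), x'.IsMaximal → algebraMap R (chart R t) π ∈ x' →
      SmoothAt π (chart R t) x')
    (hinf : ∀ x : Ideal (chart R t⁻¹), x.IsMaximal → algebraMap R (chart R t⁻¹) π ∈ x →
      (⟨t⁻¹, self_mem_chart t⁻¹⟩ : chart R t⁻¹) ∈ x → SmoothAt π (chart R t⁻¹) x)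
    (x : Ideal (chart R t⁻¹)) (hx : x.IsMaximal) (hπ : algebraMap R (chart R t⁻¹) π ∈ x) :
    SmoothAt π (chart R t⁻¹) x := by
  by_cases htx : (⟨t⁻¹, self_mem_chart t⁻¹⟩ : chart R t⁻¹) ∈ x
  · exact hinf x hx hπ htx
  · have hfinq : Finite (chart R t⁻¹ ⧸ x) := finite_quotient_of_finiteType π hπmax x hπ
    exact smoothAt_chart_inv π ht h0 hx hπ htx
      (fun b hb => exists_pow_sub_one_mem_of_finite x b hb)

end Smooth1

end Fermat.Agent.RED.ChartTransfer3
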