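/-
Program H (S18) — helper4 (integrator): GENERIC assembly of MODEL.

Over a DVR `O : ValuationSubring K` (char 0), `E ≤ Frac O((q))`, a parameter `t ∈ E ∩ gaussRing O`
with transcendental residue, the degree bookkeeping `(DEG)+(IRR)` of `G1Package8` and the local
smoothness `(LOC)` of both charts `chart O t`, `chart O t⁻¹` (integral closures of `O[t^{±1}]` in
`E`) give `NumInst4.HasModel O E` — the deliverable of MODEL consumed by `NumInst4.numStep_of_models`.

All Gauss fields of `CoreIface24.TwoChartModel` come from `G1Package8` (helper8), all fields not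
involving the Gauss valuation ring from `ChartGeneric22.twoChartModel_of` (helper22).
-/
import Mathlib
import Fermat.Agent.RED.NumInst4
import Fermat.Agent.RED.PUR.G1Package8
import Fermat.Agent.RED.PUR.ChartGeneric22

set_option autoImplicit false

open HahnSeries ModularCurve IntermediateField

noncomputable section

namespace Fermat.Agent.RED.ModelAsm4

open Fermat.Agent.RED.CORE.CoreIface24 Fermat.Agent.RED.PUR.GaussGen8
  Fermat.Agent.RED.PUR.KtGauss8 Fermat.Agent.RED.PUR.G1Package8
  Fermat.Agent.RED.PUR.ChartGeneric22 Fermat.Agent.RED.NumInst4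

variable {K : Type*} [Field K] (O : ValuationSubring K)
  (E : IntermediateField K (LaurentSeries K))

/-- **(LOC)** on the chart `chart O s` (the integral closure of `O[s]` in `E`): every maximal ideal
containing `π` is locally generated by `π` and one more element.  This is literally the
`smooth0`/`smooth1` hypothesis of `ChartGeneric22.twoChartModel_of` (and `Interface26.LocPrin` at
every maximal ideal containing `π`). -/
def SmoothChart (π : ↥O) (s : ↥E) : Prop :=
  ∀ x : Ideal (chart ↥O s), x.IsMaximal → algebraMap ↥O (chart ↥O s) π ∈ x →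
    ∃ s₀ ∈ x, ∀ y ∈ x, ∃ d : chart ↥O s, d ∉ x ∧
      d * y ∈ Ideal.span {algebraMap ↥O (chart ↥O s) π, s₀}

variable {O E}

/-- `[E : K(t)]` computed inside `E` agrees with the relative rank inside `K((q))`. -/
theorem finrank_adjoin_eq_relfinrank (t : ↥E) :
    Module.finrank ↥(IntermediateField.adjoin K {t}) ↥E
      = relfinrank (IntermediateField.adjoin K {(t : LaurentSeries K)}) E := by
  have h1 : (IntermediateField.adjoin K {t}).map E.val
      = IntermediateField.adjoin K {(t : LaurentSeries K)} := by
    rw [IntermediateField.adjoin_map, Set.image_singleton]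
    rfl
  have h2 : (⊤ : IntermediateField K ↥E).map E.val = E := by
    rw [← AlgHom.fieldRange_eq_map, IntermediateField.fieldRange_val]
  rw [← relfinrank_top_right, ← relfinrank_map_map _ _ E.val, h1, h2]

theorem finiteDimensional_adjoin (t : ↥E)
    (hn : relfinrank (IntermediateField.adjoin K {(t : LaurentSeries K)}) E ≠ 0) :
    FiniteDimensional ↥(IntermediateField.adjoin K {t}) ↥E := by
  rw [← finrank_adjoin_eq_relfinrank] at hn
  exact FiniteDimensional.of_finrank_pos (Nat.pos_of_ne_zero hn)

theorem transcendental_of_coe (t : ↥E) (h : Transcendental K (t : LaurentSeries K)) :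
    Transcendental K t := by
  intro halg
  exact h (halg.algHom E.val)

variable [IsDiscreteValuationRing ↥O]

theorem dvr_factor {π : ↥O} (hπ : Irreducible π) (r : ↥O) (hr : r ≠ 0) :
    ∃ (k : ℕ) (v : (↥O)ˣ), r = π ^ k * v := by
  obtain ⟨k, u, h⟩ := IsDiscreteValuationRing.eq_unit_mul_pow_irreducible hr hπ
  exact ⟨k, u, by rw [h, mul_comm]⟩

/-- **MODEL, generic assembly.**  `(DEG)+(IRR)` for `n = [E : K(t)] ≠ 0` and `(LOC)` on both charts
give the two-chart model over the Gauss valuation ring. -/
theorem hasModel_of_g1 [CharZero K] {π : ↥O} (hπ : Irreducible π) (hE : E ≤ fracField O) (t : ↥E)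
    (ht : (t : LaurentSeries K) ∈ gaussRing O)
    (htr : Transcendental (Res O) (gaussRed O ⟨(t : LaurentSeries K), ht⟩))
    {n : ℕ} (hn : relfinrank (Kt O ⟨(t : LaurentSeries K), ht⟩) E ≠ 0)
    (hdeg : DegLe O E ⟨(t : LaurentSeries K), ht⟩ n)
    (hirr : Irr O E ⟨(t : LaurentSeries K), ht⟩ n)
    (hsm0 : SmoothChart O E π t) (hsm1 : SmoothChart O E π t⁻¹) :
    HasModel O E := by
  have : IsScalarTower ↥O K ↥E := isScalarTower_OE O E
  have : FiniteDimensional ↥(IntermediateField.adjoin K {t}) ↥E := finiteDimensional_adjoin t hn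
  have htrK : Transcendental K t :=
    transcendental_of_coe t (transcendental_t (tG := ⟨(t : LaurentSeries K), ht⟩) hπ htr)
  refine ⟨π, isUnif_of_irreducible O hπ, hE, t, chart ↥O t, chart ↥O t⁻¹, ?_⟩
  refine twoChartModel_of (R := ↥O) (K := K) (F := ↥E) (π := π) (t := t) (OvE O hπ E hE) htrK
    (dvr_factor hπ) ?_ (t_mem hπ hE t ht) (t_inv_mem hπ hE t ht htr)
    (algebraMap_pi_ne_zero hπ) (pi_inv_not_mem hπ hE)
    (fun x hx hxi => exists_eq_pi_mul hπ hE hx hxi) ?_ ?_ hsm0 hsm1
  · intro r
    exact (mem_OvE_iff O hπ E hE _).mpr (algebraMap_O_mem r)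
  · intro b hb c hc hbc
    rw [mem_chart_iff] at hb ⊢
    exact isIntegral_of_mul hπ hE t ht htr hdeg hirr hc (hbc ▸ hb)
  · intro b hb c hc hbc
    rw [mem_chart_iff] at hb ⊢
    exact isIntegral_of_mul_inv hπ hE t ht htr hdeg hirr hc (hbc ▸ hb)

end Fermat.Agent.RED.ModelAsm4
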