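/-
Program H (S18) — helper4 (integrator): the CONTRACT between MODEL-assembly and the chapters
PUR-concrete (non-cusp closed points) and CUSP-concrete (cusp closed points), GENERIC form.

For a DVR `O : ValuationSubring K`, `E ⊂ K((q))`, a parameter `t : E`, a set `S` of "cusp values"
in `O`:

* `SmoothOff O E π t S`  : (LOC) at every maximal ideal `x ∋ π` of `chart O t` containing NO
  `t - c`, `c ∈ S`                                                   [deliverable of PUR-concrete];
* `SmoothOver O E π t c` : (LOC) at every maximal ideal `x ∋ π, t - c` of `chart O t`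
                                                                     [deliverable of CUSP-concrete,
  for `c ∈ S` on the chart `t`, and for `(t⁻¹, 0)` on the chart at infinity].

`smoothChart_of_split` / `smoothChart_inv_of_split` reassemble `ModelAsm4.SmoothChart` on both charts
(the second one via `ChartTransfer3.smooth1_of_smooth0`), `hasModel_of_split` gives
`NumInst4.HasModel O E`.
-/
import Mathlib
import Fermat.Agent.RED.ModelAsm4
import Fermat.Agent.RED.ChartTransfer3

set_option autoImplicit false

open HahnSeries ModularCurve IntermediateField Polynomial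

noncomputable section

namespace Fermat.Agent.RED.ModelIface4

open Fermat.Agent.RED.CORE.CoreIface24 Fermat.Agent.RED.PUR.GaussGen8
  Fermat.Agent.RED.PUR.KtGauss8 Fermat.Agent.RED.PUR.G1Package8
  Fermat.Agent.RED.PUR.ChartGeneric22 Fermat.Agent.RED.NumInst4
  Fermat.Agent.RED.ModelAsm4 Fermat.Agent.RED.ChartTransfer3

section Defs

variable {K : Type*} [Field K] (O : ValuationSubring K)
  (E : IntermediateField K (LaurentSeries K))

/-- `t - c` as an element of the chart `chart O t`. -/
def subConst (t : ↥E) (c : ↥O) : chart ↥O t :=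
  (⟨t, self_mem_chart t⟩ : chart ↥O t) - algebraMap ↥O (chart ↥O t) c

/-- (LOC) at the closed points of `chart O t` over `π` away from the values `c ∈ S`. -/
def SmoothOff (π : ↥O) (t : ↥E) (S : Set ↥O) : Prop :=
  ∀ x : Ideal (chart ↥O t), x.IsMaximal → algebraMap ↥O (chart ↥O t) π ∈ x →
    (∀ c ∈ S, subConst O E t c ∉ x) → SmoothAt π (chart ↥O t) x

/-- (LOC) at the closed points of `chart O t` over `π` with `t = c`. -/
def SmoothOver (π : ↥O) (t : ↥E) (c : ↥O) : Prop :=
  ∀ x : Ideal (chart ↥O t), x.IsMaximal → algebraMap ↥O (chart ↥O t) π ∈ x →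
    subConst O E t c ∈ x → SmoothAt π (chart ↥O t) x

variable {O E}

theorem smoothChart_of_split {π : ↥O} {t : ↥E} {S : Set ↥O} (hoff : SmoothOff O E π t S)
    (hover : ∀ c ∈ S, SmoothOver O E π t c) : SmoothChart O E π t := by
  intro x hx hπx
  by_cases h : ∀ c ∈ S, subConst O E t c ∉ x
  · exact hoff x hx hπx h
  · push Not at h
    obtain ⟨c, hc, hcx⟩ := h
    exact hover c hc x hx hπx hcx

theorem subConst_zero (t : ↥E) : subConst O E t 0 = (⟨t, self_mem_chart t⟩ : chart ↥O t) := by
  unfold subConst
  rw [map_zero, sub_zero]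

end Defs

section FiniteType

variable {R K F : Type*} [CommRing R] [IsDomain R] [Field K] [Field F] [Algebra R K] [Algebra K F]
  [Algebra R F] [IsScalarTower R K F] [IsFractionRing R K] [IsNoetherianRing R]
  [IsIntegrallyClosed R] [CharZero K]

/-- The chart is an `R`-algebra of finite type. -/
theorem finiteType_chart {s : F} [FiniteDimensional ↥(IntermediateField.adjoin K {s}) F]
    (htr : Transcendental K s) : Algebra.FiniteType R (chart R s) := by
  classical
  obtain ⟨-, -, r, e, he, hgen⟩ := chart_facts (R := R) (IntermediateField.adjoin K {s})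
    (IntermediateField.mem_adjoin_simple_self K s) le_rfl htr
  rw [← Subalgebra.fg_iff_finiteType]
  refine ⟨insert s (Finset.univ.image e), le_antisymm ?_ ?_⟩
  · apply Algebra.adjoin_le
    intro y hy
    rw [Finset.coe_insert, Set.mem_insert_iff] at hy
    rcases hy with rfl | hy
    · exact self_mem_chart _
    · rw [Finset.coe_image, Set.mem_image] at hy
      obtain ⟨i, -, rfl⟩ := hy
      exact he i
  · intro x hx
    obtain ⟨P, rfl⟩ := hgen x hx
    refine Subalgebra.sum_mem _ fun i _ => Subalgebra.mul_mem _ ?_ ?_
    · have h1 : Algebra.adjoin R {s} ≤ Algebra.adjoin R (↑(insert s (Finset.univ.image e)) : Set F) :=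
        Algebra.adjoin_mono (by
          intro y hy
          rw [Set.mem_singleton_iff] at hy
          rw [Finset.coe_insert, hy]
          exact Set.mem_insert _ _)
      apply h1
      rw [Algebra.adjoin_singleton_eq_range_aeval]
      exact ⟨P i, rfl⟩
    · apply Algebra.subset_adjoin
      rw [Finset.coe_insert, Finset.coe_image]
      exact Set.mem_insert_of_mem _ ⟨i, by simp, rfl⟩

end FiniteType

section Assembly

variable {K : Type*} [Field K] [CharZero K] {O : ValuationSubring K} [IsDiscreteValuationRing ↥O]
  {E : IntermediateField K (LaurentSeries K)}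

/-- The chart at infinity: (LOC) there follows from (LOC) on the chart `t` and at the points
`t⁻¹ = 0`. -/
theorem smoothChart_inv_of_split {π : ↥O} (hπ : Irreducible π)
    [Finite (↥O ⧸ (Ideal.span {π} : Ideal ↥O))] {t : ↥E} (htr : Transcendental K t)
    [FiniteDimensional ↥(IntermediateField.adjoin K {t}) ↥E]
    (h0 : SmoothChart O E π t) (hinf : SmoothOver O E π t⁻¹ 0) : SmoothChart O E π t⁻¹ := by
  have : IsScalarTower ↥O K ↥E := isScalarTower_OE O E
  have ht0 : t ≠ 0 := by
    rintro rfl
    exact htr isAlgebraic_zero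
  have htr' : Transcendental K t⁻¹ := fun h => htr (IsAlgebraic.inv_iff.1 h)
  have hEE : IntermediateField.adjoin K {t} = IntermediateField.adjoin K {t⁻¹} := by
    apply le_antisymm
    · rw [IntermediateField.adjoin_le_iff, Set.singleton_subset_iff]
      have h2 := inv_mem (IntermediateField.mem_adjoin_simple_self K t⁻¹)
      rwa [inv_inv] at h2
    · rw [IntermediateField.adjoin_le_iff, Set.singleton_subset_iff]
      exact inv_mem (IntermediateField.mem_adjoin_simple_self K t)
  have : FiniteDimensional ↥(IntermediateField.adjoin K {t⁻¹}) ↥E := hEE ▸ ‹_›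
  have : Algebra.FiniteType ↥O (chart ↥O t⁻¹) := finiteType_chart (R := ↥O) (K := K) htr'
  have hmax : (Ideal.span {π} : Ideal ↥O).IsMaximal := by
    rw [← hπ.maximalIdeal_eq]
    exact IsLocalRing.maximalIdeal.isMaximal _
  intro x hx hπx
  refine smooth1_of_smooth0 π ht0 hmax h0 (fun x hx hπx htx => hinf x hx hπx ?_) x hx hπx
  rw [subConst_zero]
  exact htx

/-- **MODEL from the split (LOC).**  `(DEG)+(IRR)` of `G1Package8`, (LOC) away from the cusp values
(PUR), (LOC) over the finite cusp values and over `t = ∞` (CUSP) give `HasModel O E`. -/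
theorem hasModel_of_split {π : ↥O} (hπ : Irreducible π)
    [Finite (↥O ⧸ (Ideal.span {π} : Ideal ↥O))] (hE : E ≤ fracField O) (t : ↥E)
    (ht : (t : LaurentSeries K) ∈ gaussRing O)
    (htr : Transcendental (Res O) (gaussRed O ⟨(t : LaurentSeries K), ht⟩))
    {n : ℕ} (hn : relfinrank (Kt O ⟨(t : LaurentSeries K), ht⟩) E ≠ 0)
    (hdeg : DegLe O E ⟨(t : LaurentSeries K), ht⟩ n)
    (hirr : Irr O E ⟨(t : LaurentSeries K), ht⟩ n)
    (S : Set ↥O) (hoff : SmoothOff O E π t S) (hover : ∀ c ∈ S, SmoothOver O E π t c)
    (hinf : SmoothOver O E π t⁻¹ 0) : HasModel O E := by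
  have hfd : FiniteDimensional ↥(IntermediateField.adjoin K {t}) ↥E := finiteDimensional_adjoin t hn
  have htrK : Transcendental K t :=
    transcendental_of_coe t (transcendental_t (tG := ⟨(t : LaurentSeries K), ht⟩) hπ htr)
  have h0 : SmoothChart O E π t := smoothChart_of_split hoff hover
  exact hasModel_of_g1 hπ hE t ht htr hn hdeg hirr h0
    (smoothChart_inv_of_split hπ htrK h0 hinf)

end Assembly

end Fermat.Agent.RED.ModelIface4
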