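/-
Program H (S18) — helper4 (integrator): the CONCRETE targets of MODEL, as Prop-defs.

Setting: `(n, e) = (4, 8)` or `(9, 3)`, `n ∣ M`, `A` a valuation subring of `Qbar` over `ℓ ∤ M`,
`cv : SL₂(ℤ) → Option Kbar` the cusp-value function of BASE (`Interface12.CuspExp`).

Every target has the form `EventuallyT n e M A P`: there is a number field `K₀` such that for all
number fields `K ⊇ K₀`, all uniformisers `ϖ` of `A_K = A ∩ K` and the Hauptmodul
`t = tq K n e ∈ FK M K`, the property `P K ϖ t` holds.

* `OffTarget`  (PUR-concrete)  : `ModelIface4.SmoothOff` away from the finite cusp values;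
* `OverTarget` (CUSP-concrete) : `ModelIface4.SmoothOver` at every finite cusp value;
* `InfTarget`  (CUSP-concrete) : `ModelIface4.SmoothOver` at `t⁻¹ = 0`;
* `TTarget`    (BASE→GAUSS)    : `tq K n e ∈ FK M K`;
* `JTarget`    (BASE→GAUSS)    : `j ∈ K(t)`.
-/
import Mathlib
import Fermat.Agent.RED.ModelIface4
import Fermat.Agent.RED.BASE.Interface12
import Fermat.Agent.RED.BASE.TqTranscendental19

set_option autoImplicit false

open HahnSeries ModularCurve IntermediateField
open scoped MatrixGroups

noncomputable section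

namespace Fermat.Agent.RED.ModelTargets4

open Fermat.Agent.RED.Interface4 Fermat.Agent.RED.PUR.GaussGen8
  Fermat.Agent.RED.ModelIface4 Fermat.Agent.RED.BASE.EtaQuot12 Fermat.Agent.X0

section Generic

variable {K : Type*} [Field K] (O : ValuationSubring K) (n e : ℕ) [NeZero n]

/-- (T2) the Hauptmodul has coefficients in `O` (indeed in `ℤ`). -/
theorem tq_mem_gaussRing : tq K n e ∈ gaussRing O := by
  have h : embK O (tq ↥O n e) = tq K n e := coeffMap_tq ↥O O.subtype n e
  rw [← h]
  exact embK_mem O _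

/-- (T2) its Gauss reduction is the Hauptmodul over the residue field. -/
theorem gaussRed_tq : gaussRed O ⟨tq K n e, tq_mem_gaussRing O n e⟩ = tq (Res O) n e := by
  have h : embK O (tq ↥O n e) = tq K n e := coeffMap_tq ↥O O.subtype n e
  have h2 : (⟨tq K n e, tq_mem_gaussRing O n e⟩ : gaussRing O)
      = ⟨embK O (tq ↥O n e), embK_mem O _⟩ := Subtype.ext h.symm
  rw [h2, gaussRed_embK]
  exact coeffMap_tq ↥O (res0 O) n e

/-- (T3) `htr` of `G1Package8` for the Hauptmodul. -/
theorem transcendental_gaussRed_tq :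
    Transcendental (Res O) (gaussRed O ⟨tq K n e, tq_mem_gaussRing O n e⟩) := by
  rw [gaussRed_tq]
  exact Fermat.Agent.RED.BASE.TqTranscendental19.transcendental_tq (Res O) n e

end Generic

variable (n e M : ℕ) [NeZero n] [NeZero M] (A : ValuationSubring Qbar)

/-- The finite cusp values lying in `A_K`. -/
def cuspSet (K : IntermediateField ℚ Qbar) (cv : SL(2, ℤ) → Option Kbar) : Set ↥(AK A K) :=
  {c | ∃ γ, cv γ = some (algebraMap K Qbar (c : K))}

/-- `P K ϖ t` holds over all sufficiently large number fields `K`, for every uniformiser `ϖ` of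
`A_K` and `t = tq K n e ∈ FK M K`. -/
def EventuallyT
    (P : ∀ K : IntermediateField ℚ Qbar, ↥(AK A K) → ↥(FK M K) → Prop) : Prop :=
  ∃ K₀ : IntermediateField ℚ Qbar, FiniteDimensional ℚ K₀ ∧
    ∀ K : IntermediateField ℚ Qbar, FiniteDimensional ℚ K → K₀ ≤ K →
      ∀ ϖ : ↥(AK A K), Irreducible ϖ →
        ∀ t : ↥(FK M K), (t : LaurentSeries K) = tq K n e → P K ϖ t

/-- **Target of PUR-concrete**: (LOC) at the non-cusp closed points of the chart `t`. -/
def OffTarget (cv : SL(2, ℤ) → Option Kbar) : Prop :=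
  EventuallyT n e M A fun K ϖ t => SmoothOff (AK A K) (FK M K) ϖ t (cuspSet A K cv)

/-- **Target of CUSP-concrete**: (LOC) at the closed points over the finite cusp values. -/
def OverTarget (cv : SL(2, ℤ) → Option Kbar) : Prop :=
  EventuallyT n e M A fun K ϖ t => ∀ c ∈ cuspSet A K cv, SmoothOver (AK A K) (FK M K) ϖ t c

/-- **Target of CUSP-concrete at infinity**: (LOC) at the closed points `t⁻¹ = 0` of the chart
`t⁻¹`. -/
def InfTarget : Prop :=
  EventuallyT n e M A fun K ϖ t => SmoothOver (AK A K) (FK M K) ϖ t⁻¹ 0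

/-- **(T1)**: the Hauptmodul lies in `K·F_M` for all large number fields `K`. -/
def TTarget : Prop :=
  ∃ K₁ : IntermediateField ℚ Qbar, FiniteDimensional ℚ K₁ ∧
    ∀ K : IntermediateField ℚ Qbar, FiniteDimensional ℚ K → K₁ ≤ K → tq K n e ∈ FK M K

/-- **(T5)**: `j ∈ K(t)` for all large number fields `K`. -/
def JTarget : Prop :=
  ∃ K₁ : IntermediateField ℚ Qbar, FiniteDimensional ℚ K₁ ∧
    ∀ K : IntermediateField ℚ Qbar, FiniteDimensional ℚ K → K₁ ≤ K →
      jqModC K ∈ IntermediateField.adjoin K {tq K n e}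

end Fermat.Agent.RED.ModelTargets4
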