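/-
Program H (S18) — helper4 (integrator): NUM from MODEL alone.

`numStep_of_model`: CORE (`CoreMain24.coreB`, helper24 et al.) and `AlgClosedIn` (`AlgClosedIn10`,
helper10) are plugged into `NumInst4.numStep_of_models`; the only remaining input of `NumStep` is the
deliverable of MODEL: two-chart models over all sufficiently large number fields.
-/
import Mathlib
import Fermat.Agent.RED.NumInst4
import Fermat.Agent.RED.CORE.CoreMain24
import Fermat.Agent.RED.PUR.AlgClosedIn10

set_option autoImplicit false

open HahnSeries AlgebraicCurve ModularCurve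

noncomputable section

namespace Fermat.Agent.RED.NumMain4

open Fermat.Agent.RED.Interface4 Fermat.Agent.RED.InterfaceGe4 Fermat.Agent.RED.NumInst4

/-- The abstract core at every `(O, Kt, E)`. -/
theorem coreBAt {Kt : Type*} [Field Kt] (O : ValuationSubring Kt)
    (E : IntermediateField Kt (LaurentSeries Kt)) : CoreBAt O E := by
  have : IsScalarTower ↥O Kt ↥E := isScalarTower_OE O E
  exact Fermat.Agent.RED.CORE.CoreMain24.coreB

/-- The deliverable of MODEL at level `M` over the place `A`. -/
def ModelStep (M : ℕ) (A : ValuationSubring Qbar) : Prop :=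
  ∃ K₀ : IntermediateField ℚ Qbar, FiniteDimensional ℚ K₀ ∧
    ∀ K : IntermediateField ℚ Qbar, FiniteDimensional ℚ K → K₀ ≤ K →
      HasModel (AK A K) (FK M K)

/-- **NUM from MODEL.** -/
theorem numStep_of_model {ℓ : ℕ} (hℓ : ℓ.Prime) (M : ℕ) {A : ValuationSubring Qbar}
    (hA : A.LiesOverPrime ℓ) (h : ModelStep M A) : NumStep ℓ M A := by
  obtain ⟨K₀, hK₀, hK⟩ := h
  refine numStep_of_models hℓ M hA ⟨K₀, hK₀, fun K hKfd hle => ⟨?_, hK K hKfd hle, ?_⟩⟩
  · exact coreBAt (AK A K) (FK M K)
  · exact Fermat.Agent.RED.PUR.AlgClosedIn10.algClosedIn_FK M K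

end Fermat.Agent.RED.NumMain4
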