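/-
Program H (S18) — helper4 (integrator): MODEL, concrete assembly.

`modelStep_of_targets`: the five concrete targets of `ModelTargets4` (PUR-concrete, CUSP-concrete,
BASE→GAUSS bridge) + the GAUSS chapter (`GaussBridge10`, `GaussInst25`) + `NumberFieldDVR27` give
`NumMain4.ModelStep M A`, i.e. two-chart models of `K·F_M` over `A ∩ K` for all large number fields.
-/
import Mathlib
import Fermat.Agent.RED.ModelTargets4
import Fermat.Agent.RED.NumMain4
import Fermat.Agent.RED.PUR.GaussInst25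
import Fermat.Agent.RED.DESC.NumberFieldDVR27

set_option autoImplicit false

open HahnSeries ModularCurve IntermediateField
open scoped MatrixGroups

noncomputable section

namespace Fermat.Agent.RED.ModelMain4

open Fermat.Agent.RED.Interface4 Fermat.Agent.RED.PUR.GaussGen8 Fermat.Agent.RED.PUR.KtGauss8
  Fermat.Agent.RED.PUR.G1Package8 Fermat.Agent.RED.ModelIface4 Fermat.Agent.RED.ModelTargets4
  Fermat.Agent.RED.BASE.EtaQuot12 Fermat.Agent.X0 Fermat.Agent.RED.NumInst4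
  Fermat.Agent.RED.NumMain4 Fermat.Agent.RED.DESC.NumberFieldDVR27

section Generic

variable {K : Type} [Field K] [Algebra ℚ K] (O : ValuationSubring K)

/-- `[K·F_M : K(t)] ≠ 0` for `t ∈ K·F_M` with `j ∈ K(t)`. -/
theorem relfinrank_ne_zero (M : ℕ) [NeZero M] (tG : ↥(gaussRing O))
    (htE : (tG : LaurentSeries K) ∈ laurentBaseChange K (modularFunctionFieldFull M))
    (hjt : jqModC K ∈ Kt O tG) :
    relfinrank (Kt O tG) (laurentBaseChange K (modularFunctionFieldFull M)) ≠ 0 := by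
  have hψ : relfinrank K⟮jqModC K⟯ (laurentBaseChange K (modularFunctionFieldFull M))
      = dedekindPsi M :=
    Fermat.Agent.RED.PUR.DegBaseChange25.relfinrank_laurentBaseChange_eq_psi K M
  have hψ0 : dedekindPsi M ≠ 0 :=
    (Fermat.Agent.X0.GNPsi.gnp_dedekindPsi_pos (NeZero.ne M)).ne'
  have h1 : K⟮jqModC K⟯ ≤ Kt O tG := adjoin_simple_le_iff.mpr hjt
  have h2 : Kt O tG ≤ laurentBaseChange K (modularFunctionFieldFull M) :=
    adjoin_simple_le_iff.mpr htE
  have hmul := relfinrank_mul_relfinrank h1 h2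
  intro h0
  rw [h0, mul_zero, hψ] at hmul
  exact hψ0 hmul.symm

end Generic

variable {n e M : ℕ} [NeZero n] [NeZero M] {A : ValuationSubring Qbar}

/-- **MODEL from the concrete targets.** -/
theorem modelStep_of_targets {ℓ : ℕ} [Fact ℓ.Prime] (hℓM : ¬ ℓ ∣ M) (hA : A.LiesOverPrime ℓ)
    (cv : SL(2, ℤ) → Option Kbar)
    (hT : TTarget n e M) (hJ : JTarget n e) (hoff : OffTarget n e M A cv)
    (hover : OverTarget n e M A cv) (hinf : InfTarget n e M A) : ModelStep M A := by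
  have hℓ : ℓ.Prime := Fact.out
  obtain ⟨K₁, hK₁, hT⟩ := hT
  obtain ⟨K₂, hK₂, hJ⟩ := hJ
  obtain ⟨K₃, hK₃, hoff⟩ := hoff
  obtain ⟨K₄, hK₄, hover⟩ := hover
  obtain ⟨K₅, hK₅, hinf⟩ := hinf
  refine ⟨K₁ ⊔ K₂ ⊔ K₃ ⊔ K₄ ⊔ K₅, inferInstance, fun K hKfd hle => ?_⟩
  have hle1 : K₁ ≤ K := le_trans (le_trans (le_trans (le_trans le_sup_left le_sup_left)
    le_sup_left) le_sup_left) hle
  have hle2 : K₂ ≤ K := le_trans (le_trans (le_trans (le_trans le_sup_right le_sup_left)
    le_sup_left) le_sup_left) hle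
  have hle3 : K₃ ≤ K := le_trans (le_trans (le_trans le_sup_right le_sup_left) le_sup_left) hle
  have hle4 : K₄ ≤ K := le_trans (le_trans le_sup_right le_sup_left) hle
  have hle5 : K₅ ≤ K := le_trans le_sup_right hle
  have hdvr : IsDiscreteValuationRing ↥(AK A K) := isDiscreteValuationRing_AK A K hℓ.ne_zero hA
  obtain ⟨ϖ, hϖ⟩ := IsDiscreteValuationRing.exists_irreducible ↥(AK A K)
  have hchar : CharP (Res (AK A K)) ℓ := charP_residueField_AK A K hℓ hA
  have hfin : Finite (↥(AK A K) ⧸ (Ideal.span {ϖ} : Ideal ↥(AK A K))) := by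
    have h1 : Finite (IsLocalRing.ResidueField ↥(AK A K)) :=
      finite_residueField_AK A K hℓ.ne_zero hA
    rw [← hϖ.maximalIdeal_eq]
    exact h1
  have hE : FK M K ≤ fracField (AK A K) :=
    Fermat.Agent.RED.PUR.GaussBridge10.FK_le_fracField A K M
  have htE : tq K n e ∈ FK M K := hT K hKfd hle1
  let t : ↥(FK M K) := ⟨tq K n e, htE⟩
  have ht : ((t : ↥(FK M K)) : LaurentSeries K) ∈ gaussRing (AK A K) :=
    tq_mem_gaussRing (AK A K) n e
  have htr : Transcendental (Res (AK A K))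
      (gaussRed (AK A K) ⟨((t : ↥(FK M K)) : LaurentSeries K), ht⟩) :=
    transcendental_gaussRed_tq (AK A K) n e
  have hjt : jqModC K ∈ Kt (AK A K) ⟨((t : ↥(FK M K)) : LaurentSeries K), ht⟩ := hJ K hKfd hle2
  obtain ⟨nn, -, hdeg, hirr⟩ := Fermat.Agent.RED.PUR.GaussInst25.exists_degLe_irr_FK A K hϖ ℓ M hℓM
    ⟨((t : ↥(FK M K)) : LaurentSeries K), ht⟩ htE hjt
  have hn : relfinrank (Kt (AK A K) ⟨((t : ↥(FK M K)) : LaurentSeries K), ht⟩) (FK M K) ≠ 0 :=
    relfinrank_ne_zero (AK A K) M _ htE hjt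
  exact hasModel_of_split hϖ hE t ht htr hn hdeg hirr (cuspSet A K cv)
    (hoff K hKfd hle3 ϖ hϖ t rfl) (hover K hKfd hle4 ϖ hϖ t rfl) (hinf K hKfd hle5 ϖ hϖ t rfl)

end Fermat.Agent.RED.ModelMain4
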