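/-
Program H (S18) — helper4 (integrator): NUM from the three smoothness targets.

`tTarget` / `jTarget` (BASE→GAUSS bridge: `TBridge15`, `JInKt25`) are discharged here, so that
`numStep_of_smooth` needs ONLY the deliverables of PUR-concrete (`OffTarget`) and CUSP-concrete
(`OverTarget`, `InfTarget`).
-/
import Mathlib
import Fermat.Agent.RED.ModelMain4
import Fermat.Agent.RED.BASE.TBridge15
import Fermat.Agent.RED.BASE.JInKt25
import Fermat.Agent.RED.BASE.MainCusp12

set_option autoImplicit false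

open HahnSeries ModularCurve IntermediateField
open scoped MatrixGroups

noncomputable section

namespace Fermat.Agent.RED.ModelFinal4

open Fermat.Agent.RED.Interface4 Fermat.Agent.RED.InterfaceGe4 Fermat.Agent.RED.ModelTargets4
  Fermat.Agent.RED.ModelMain4 Fermat.Agent.RED.NumMain4 Fermat.Agent.RED.BASE.Interface12
  Fermat.Agent.X0

variable {n e : ℕ} [NeZero n]

/-- (T1) from `TBridge15`. -/
theorem tTarget (M : ℕ) [NeZero M] (h : TMem n e M) : TTarget n e M := by
  obtain ⟨K₁, hK₁, hK⟩ := Fermat.Agent.RED.BASE.TBridge15.exists_tq_mem n e M h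
  exact ⟨K₁, hK₁, fun K _ hle => hK K hle⟩

/-- (T5) from `JInKt25`. -/
theorem jTarget (hgen : TGenBase n e) : JTarget n e := by
  obtain ⟨K₁, hK₁, hK⟩ := Fermat.Agent.RED.BASE.JInKt25.exists_j_mem_adjoin n e hgen
  exact ⟨K₁, hK₁, fun K _ hle => hK K hle⟩

/-- **MODEL from (LOC)**: the smoothness targets give the two-chart models. -/
theorem modelStep_of_smooth {M : ℕ} [NeZero M] (hmem : TMem n e M) (hgen : TGenBase n e)
    {ℓ : ℕ} [Fact ℓ.Prime] (hℓM : ¬ ℓ ∣ M) {A : ValuationSubring Qbar} (hA : A.LiesOverPrime ℓ)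
    (cv : SL(2, ℤ) → Option Kbar) (hoff : OffTarget n e M A cv) (hover : OverTarget n e M A cv)
    (hinf : InfTarget n e M A) : ModelStep M A :=
  modelStep_of_targets hℓM hA cv (tTarget M hmem) (jTarget hgen) hoff hover hinf

/-- **NUM from (LOC).** -/
theorem numStep_of_smooth {M : ℕ} [NeZero M] (hmem : TMem n e M) (hgen : TGenBase n e)
    {ℓ : ℕ} [Fact ℓ.Prime] (hℓM : ¬ ℓ ∣ M) {A : ValuationSubring Qbar} (hA : A.LiesOverPrime ℓ)
    (cv : SL(2, ℤ) → Option Kbar) (hoff : OffTarget n e M A cv) (hover : OverTarget n e M A cv)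
    (hinf : InfTarget n e M A) : NumStep ℓ M A :=
  numStep_of_model Fact.out M hA (modelStep_of_smooth hmem hgen hℓM hA cv hoff hover hinf)

/-- The three smoothness targets, bundled, at the level `M` for the Hauptmodul of level `n`. -/
def SmoothTargets (n e M : ℕ) [NeZero n] [NeZero M] (A : ValuationSubring Qbar) : Prop :=
  ∃ cv : SL(2, ℤ) → Option Kbar,
    OffTarget n e M A cv ∧ OverTarget n e M A cv ∧ InfTarget n e M A

/-- `NumStep` at the auxiliary level from the smoothness targets for `(4, 8)` (`ℓ` odd) and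
`(9, 3)` (`ℓ = 2`). -/
theorem numStep_auxLevel (N : ℕ) [NeZero N] (ℓ : ℕ) [Fact ℓ.Prime] (hℓN : ¬ ℓ ∣ N)
    (A : ValuationSubring Qbar) (hA : A.LiesOverPrime ℓ)
    (h4 : ℓ ≠ 2 → ∀ [NeZero (Nat.lcm N 4)], SmoothTargets 4 8 (Nat.lcm N 4) A)
    (h9 : ℓ = 2 → ∀ [NeZero (Nat.lcm N 9)], SmoothTargets 9 3 (Nat.lcm N 9) A) :
    NumStep ℓ (auxLevel ℓ N) A := by
  have hℓ : ℓ.Prime := Fact.out
  have hM : ¬ ℓ ∣ auxLevel ℓ N := not_dvd_auxLevel hℓ hℓN
  by_cases h2 : ℓ = 2
  · have haux : auxLevel ℓ N = Nat.lcm N 9 := by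
      unfold auxLevel
      rw [if_pos h2]
    rw [haux] at hM ⊢
    have : NeZero (Nat.lcm N 9) := ⟨Nat.lcm_ne_zero (NeZero.ne N) (by norm_num)⟩
    obtain ⟨cv, hoff, hover, hinf⟩ := h9 h2
    have hB := (Fermat.Agent.RED.BASE.MainCusp12.base_nine (Nat.lcm N 9)
      (Nat.dvd_lcm_right N 9)).1
    exact numStep_of_smooth hB.mem hB.genBase hM hA cv hoff hover hinf
  · have haux : auxLevel ℓ N = Nat.lcm N 4 := by
      unfold auxLevel
      rw [if_neg h2]
    rw [haux] at hM ⊢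
    have : NeZero (Nat.lcm N 4) := ⟨Nat.lcm_ne_zero (NeZero.ne N) (by norm_num)⟩
    obtain ⟨cv, hoff, hover, hinf⟩ := h4 h2
    have hB := (Fermat.Agent.RED.BASE.MainCusp12.base_four (Nat.lcm N 4)
      (Nat.dvd_lcm_right N 4)).1
    exact numStep_of_smooth hB.mem hB.genBase hM hA cv hoff hover hinf

end Fermat.Agent.RED.ModelFinal4
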