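/-
Program H (S18) — helper4 (integrator).  FINAL ASSEMBLY, parametrised by the three smoothness targets.

`TargetsHyp` bundles the three remaining MODEL theorems (`offTarget` = chapter PUR-concrete,
`overTarget`, `infTarget` = chapter CUSP-concrete) in the literal shape the integrator asked for.
From it:

* `smoothTargets`  : `ModelFinal4.SmoothTargets n e M A`;
* `numStep_aux`    : `NumStep ℓ (auxLevel ℓ N) A`  (∃ K₀, `(CL)` over all number fields `K ⊇ K₀`);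
* `clBar_aux`      : `CLBar ℓ (auxLevel ℓ N) A`    (the core lemma over `ℚ̄` at the auxiliary level);
* `clBar`          : `CLBar ℓ N A`                 (the core lemma over `ℚ̄` at level `N`);
* `s18_of_targetsHyp` : the frozen statement S18.
-/
import Fermat.Agent.RED.TOP.S18TopAt20
import Fermat.Agent.RED.InterfaceGe4
import Fermat.Agent.RED.ModelFinal4
import Fermat.Agent.RED.BASE.Hauptmodul12
import Fermat.Agent.RED.LVL.LevelStepMain19
import Fermat.Agent.RED.DESC.DescFinal12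

set_option autoImplicit false

open scoped MatrixGroups

namespace Fermat.Agent.RED.S18OfTargets4

open Fermat.Agent.RED.Interface4 Fermat.Agent.RED.InterfaceGe4 Fermat.Agent.RED.ModelTargets4
  Fermat.Agent.RED.ModelFinal4 Fermat.Agent.RED.BASE.MainCusp12 Fermat.Agent.RED.BASE.Hauptmodul12
  Fermat.Agent.X0

/-- The three remaining MODEL theorems (PUR-concrete and CUSP-concrete), as one hypothesis. -/
def TargetsHyp : Prop :=
  ∀ {n e : ℕ} [NeZero n] (_ : BaseHyp n e) (M : ℕ) [NeZero M] (_ : n ∣ M)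
    (ℓ : ℕ) [Fact ℓ.Prime] (_ : ¬ ℓ ∣ M) (A : ValuationSubring Qbar) (_ : A.LiesOverPrime ℓ)
    (cv : SL(2, ℤ) → Option Kbar) (_ : CuspExports n e M cv),
    OffTarget n e M A cv ∧ OverTarget n e M A cv ∧ InfTarget n e M A

theorem smoothTargets (H : TargetsHyp) {n e : ℕ} [NeZero n] (hb : BaseHyp n e) (M : ℕ) [NeZero M]
    (hnM : n ∣ M) (ℓ : ℕ) [Fact ℓ.Prime] (hℓM : ¬ ℓ ∣ M) (A : ValuationSubring Qbar)
    (hA : A.LiesOverPrime ℓ) (cv : SL(2, ℤ) → Option Kbar) (hcv : CuspExports n e M cv) :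
    SmoothTargets n e M A :=
  ⟨cv, (H hb M hnM ℓ hℓM A hA cv hcv).1, (H hb M hnM ℓ hℓM A hA cv hcv).2.1,
    (H hb M hnM ℓ hℓM A hA cv hcv).2.2⟩

/-- CORE + MODEL at the auxiliary level: `(CL)` over every number field `K ⊇ K₀`. -/
theorem numStep_aux (H : TargetsHyp) (N : ℕ) [NeZero N] (ℓ : ℕ) [Fact ℓ.Prime] (hℓN : ¬ ℓ ∣ N)
    (A : ValuationSubring Qbar) (hA : A.LiesOverPrime ℓ) :
    NumStep ℓ (auxLevel ℓ N) A := by
  have hℓ : ℓ.Prime := Fact.out
  have hM : ¬ ℓ ∣ auxLevel ℓ N := not_dvd_auxLevel hℓ hℓN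
  refine numStep_auxLevel N ℓ hℓN A hA ?_ ?_
  · intro h2 _
    have haux : auxLevel ℓ N = Nat.lcm N 4 := by unfold auxLevel; rw [if_neg h2]
    rw [haux] at hM
    exact smoothTargets H baseHyp_four _ (Nat.dvd_lcm_right N 4) ℓ hM A hA _
      (base_four _ (Nat.dvd_lcm_right N 4)).2
  · intro h2 _
    have haux : auxLevel ℓ N = Nat.lcm N 9 := by unfold auxLevel; rw [if_pos h2]
    rw [haux] at hM
    exact smoothTargets H baseHyp_nine _ (Nat.dvd_lcm_right N 9) ℓ hM A hA _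
      (base_nine _ (Nat.dvd_lcm_right N 9)).2

theorem neZero_auxLevel (N : ℕ) [NeZero N] (ℓ : ℕ) : NeZero (auxLevel ℓ N) :=
  ⟨(auxLevel_pos (Nat.pos_of_ne_zero (NeZero.ne N))).ne'⟩

/-- The core lemma over `ℚ̄` at the auxiliary level `auxLevel ℓ N`. -/
theorem clBar_aux (H : TargetsHyp) (N : ℕ) [NeZero N] (ℓ : ℕ) [Fact ℓ.Prime] (hℓN : ¬ ℓ ∣ N)
    (A : ValuationSubring Qbar) (hA : A.LiesOverPrime ℓ) :
    CLBar ℓ (auxLevel ℓ N) A := by
  have : NeZero (auxLevel ℓ N) := neZero_auxLevel N ℓ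
  exact clBar_of_descStepGe (Fermat.Agent.RED.DESC.DescFinal12.descStepGe ℓ (auxLevel ℓ N) A)
    (numStep_aux H N ℓ hℓN A hA)

/-- The core lemma over `ℚ̄` at level `N`. -/
theorem clBar (H : TargetsHyp) (N : ℕ) [NeZero N] (ℓ : ℕ) [Fact ℓ.Prime] (hℓN : ¬ ℓ ∣ N)
    (A : ValuationSubring Qbar) (hA : A.LiesOverPrime ℓ) :
    CLBar ℓ N A :=
  Fermat.Agent.RED.LVL.LevelStepMain19.levelStep ℓ N A (clBar_aux H N ℓ hℓN A hA)

/-- **S18** from the three smoothness targets. -/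
theorem s18_of_targetsHyp (H : TargetsHyp) (N : ℕ) [NeZero N] {ℓ : ℕ}
    [Fact ℓ.Prime] (hℓN : ¬ ℓ ∣ N) (A : ValuationSubring (AlgebraicClosure ℚ))
    (hA : A.LiesOverPrime ℓ)
    (h : ModularCurve.ReductionInputsModL A N) (m : ℕ) (hm : ¬ ℓ ∣ m) (z : ModularCurve.JZero N)
    (hmz : m • z = 0) (hz : ModularCurve.reductionModL A N z = 0) :
    z = 0 :=
  Fermat.Agent.RED.TOP.S18TopAt20.s18_of_CLBar N A (clBar H N ℓ hℓN A hA) h m hm z hmz hz

end Fermat.Agent.RED.S18OfTargets4
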