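/-
Program H (S18) — helper4 (integrator).  Export for Program I: the two-chart models at the auxiliary
level, parametrised by `S18OfTargets4.TargetsHyp`:

* `modelStep_aux` : `∃ K₀` number field, `∀ K ⊇ K₀` number field, `HasModel (AK A K) (FK M K)` for
  `M = auxLevel ℓ N` (i.e. `NumMain4.ModelStep (auxLevel ℓ N) A`).
-/
import Fermat.Agent.RED.S18OfTargets4

set_option autoImplicit false

open scoped MatrixGroups

namespace Fermat.Agent.RED.ModelStepAux4

open Fermat.Agent.RED.Interface4 Fermat.Agent.RED.InterfaceGe4 Fermat.Agent.RED.ModelTargets4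
  Fermat.Agent.RED.ModelFinal4 Fermat.Agent.RED.BASE.MainCusp12 Fermat.Agent.RED.BASE.Hauptmodul12
  Fermat.Agent.RED.S18OfTargets4 Fermat.Agent.RED.NumMain4
  Fermat.Agent.X0

/-- MODEL at the auxiliary level: two-chart models over every number field `K ⊇ K₀`. -/
theorem modelStep_aux (H : TargetsHyp) (N : ℕ) [NeZero N] (ℓ : ℕ) [Fact ℓ.Prime] (hℓN : ¬ ℓ ∣ N)
    (A : ValuationSubring Qbar) (hA : A.LiesOverPrime ℓ) :
    ModelStep (auxLevel ℓ N) A := by
  have hℓ : ℓ.Prime := Fact.out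
  have hM : ¬ ℓ ∣ auxLevel ℓ N := not_dvd_auxLevel hℓ hℓN
  by_cases h2 : ℓ = 2
  · have haux : auxLevel ℓ N = Nat.lcm N 9 := by
      unfold auxLevel
      rw [if_pos h2]
    rw [haux] at hM ⊢
    have : NeZero (Nat.lcm N 9) := ⟨Nat.lcm_ne_zero (NeZero.ne N) (by norm_num)⟩
    have hB := base_nine (Nat.lcm N 9) (Nat.dvd_lcm_right N 9)
    obtain ⟨hoff, hover, hinf⟩ :=
      H baseHyp_nine _ (Nat.dvd_lcm_right N 9) ℓ hM A hA _ hB.2
    exact modelStep_of_smooth hB.1.mem hB.1.genBase hM hA _ hoff hover hinf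
  · have haux : auxLevel ℓ N = Nat.lcm N 4 := by
      unfold auxLevel
      rw [if_neg h2]
    rw [haux] at hM ⊢
    have : NeZero (Nat.lcm N 4) := ⟨Nat.lcm_ne_zero (NeZero.ne N) (by norm_num)⟩
    have hB := base_four (Nat.lcm N 4) (Nat.dvd_lcm_right N 4)
    obtain ⟨hoff, hover, hinf⟩ :=
      H baseHyp_four _ (Nat.dvd_lcm_right N 4) ℓ hM A hA _ hB.2
    exact modelStep_of_smooth hB.1.mem hB.1.genBase hM hA _ hoff hover hinf

end Fermat.Agent.RED.ModelStepAux4
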