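/-
Program H (S18) — helper4 (integrator).  The three smoothness targets are proved
(`OffHoriz4.offTarget`, `CuspHoriz4.overTarget`, `CuspHoriz4.infTarget`), so `S18OfTargets4.TargetsHyp`
holds; unconditional exports:

* `targetsHyp`    : `S18OfTargets4.TargetsHyp`;
* `numStep_aux`   : `NumStep ℓ (auxLevel ℓ N) A`;
* `modelStep_aux` : `ModelStep (auxLevel ℓ N) A` (two-chart models over all number fields `K ⊇ K₀`);
* `clBar_aux`     : `CLBar ℓ (auxLevel ℓ N) A`;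
* `clBar`         : `CLBar ℓ N A`;
* `s18`           : the frozen statement S18.
-/
import Fermat.Agent.RED.S18OfTargets4
import Fermat.Agent.RED.ModelStepAux4
import Fermat.Agent.RED.PUR.OffHoriz4
import Fermat.Agent.RED.CUSP.CuspHoriz4

set_option autoImplicit false

open scoped MatrixGroups

namespace Fermat.Agent.RED.S18Exports4

open Fermat.Agent.RED.Interface4 Fermat.Agent.RED.InterfaceGe4 Fermat.Agent.RED.ModelTargets4
  Fermat.Agent.RED.S18OfTargets4 Fermat.Agent.RED.NumMain4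

/-- The three MODEL targets hold. -/
theorem targetsHyp : TargetsHyp := fun hb M _ hnM ℓ _ hℓM A hA cv hcv =>
  ⟨Fermat.Agent.RED.PUR.OffHoriz4.offTarget hb M hnM ℓ hℓM A hA cv hcv,
    Fermat.Agent.RED.CUSP.CuspHoriz4.overTarget hb M hnM ℓ hℓM A hA cv hcv,
    Fermat.Agent.RED.CUSP.CuspHoriz4.infTarget hb M hnM ℓ hℓM A hA cv hcv⟩

/-- CORE + MODEL at the auxiliary level: `(CL)` over every number field `K ⊇ K₀`. -/
theorem numStep_aux (N : ℕ) [NeZero N] (ℓ : ℕ) [Fact ℓ.Prime] (hℓN : ¬ ℓ ∣ N)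
    (A : ValuationSubring Qbar) (hA : A.LiesOverPrime ℓ) : NumStep ℓ (auxLevel ℓ N) A :=
  S18OfTargets4.numStep_aux targetsHyp N ℓ hℓN A hA

/-- MODEL at the auxiliary level: two-chart models over every number field `K ⊇ K₀`. -/
theorem modelStep_aux (N : ℕ) [NeZero N] (ℓ : ℕ) [Fact ℓ.Prime] (hℓN : ¬ ℓ ∣ N)
    (A : ValuationSubring Qbar) (hA : A.LiesOverPrime ℓ) : ModelStep (auxLevel ℓ N) A :=
  Fermat.Agent.RED.ModelStepAux4.modelStep_aux targetsHyp N ℓ hℓN A hA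

/-- The core lemma over `ℚ̄` at the auxiliary level. -/
theorem clBar_aux (N : ℕ) [NeZero N] (ℓ : ℕ) [Fact ℓ.Prime] (hℓN : ¬ ℓ ∣ N)
    (A : ValuationSubring Qbar) (hA : A.LiesOverPrime ℓ) : CLBar ℓ (auxLevel ℓ N) A :=
  S18OfTargets4.clBar_aux targetsHyp N ℓ hℓN A hA

/-- The core lemma over `ℚ̄` at level `N`. -/
theorem clBar (N : ℕ) [NeZero N] (ℓ : ℕ) [Fact ℓ.Prime] (hℓN : ¬ ℓ ∣ N)
    (A : ValuationSubring Qbar) (hA : A.LiesOverPrime ℓ) : CLBar ℓ N A :=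
  S18OfTargets4.clBar targetsHyp N ℓ hℓN A hA

/-- **S18**: reduction mod `ℓ` is injective on the prime-to-`ℓ` torsion of `J₀(N)`. -/
theorem s18 (N : ℕ) [NeZero N] {ℓ : ℕ}
    [Fact ℓ.Prime] (hℓN : ¬ ℓ ∣ N) (A : ValuationSubring (AlgebraicClosure ℚ))
    (hA : A.LiesOverPrime ℓ)
    (h : ModularCurve.ReductionInputsModL A N) (m : ℕ) (hm : ¬ ℓ ∣ m) (z : ModularCurve.JZero N)
    (hmz : m • z = 0) (hz : ModularCurve.reductionModL A N z = 0) :
    z = 0 :=
  s18_of_targetsHyp targetsHyp N hℓN A hA h m hm z hmz hz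

end Fermat.Agent.RED.S18Exports4
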