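/-
Program H (S18) — helper26.  **The three smoothness targets and `TargetsHyp`.**

`offTarget`, `overTarget`, `infTarget` (literal binders of the integrator) from the horizontal inputs
`HorizConcrete26.hH_off / hH_over / hH_inf` and `OffConcrete4.offTarget_of_hunr`,
`CuspConcrete23.overTarget_of_hunr / infTarget_of_hunr`; hence `targetsHyp : S18OfTargets4.TargetsHyp`.
-/
import Fermat.Agent.RED.CUSP.HorizConcrete26
import Fermat.Agent.RED.CUSP.CuspConcrete23
import Fermat.Agent.RED.PUR.OffConcrete4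
import Fermat.Agent.RED.S18OfTargets4

set_option autoImplicit false

open scoped MatrixGroups

namespace Fermat.Agent.RED.Targets26

open Fermat.Agent.RED.Interface4 Fermat.Agent.RED.ModelTargets4 Fermat.Agent.X0
open Fermat.Agent.RED.BASE Fermat.Agent.RED.BASE.Hauptmodul12

variable {n e : ℕ} [NeZero n]

/-- **(3) PUR-concrete.** -/
theorem offTarget (hb : BaseHyp n e) (M : ℕ) [NeZero M] (hnM : n ∣ M) (ℓ : ℕ) [Fact ℓ.Prime]
    (hℓM : ¬ ℓ ∣ M) (A : ValuationSubring Qbar) (hA : A.LiesOverPrime ℓ)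
    (cv : SL(2, ℤ) → Option Kbar) (hcv : MainCusp12.CuspExports n e M cv) :
    OffTarget n e M A cv :=
  Fermat.Agent.RED.PUR.OffConcrete4.offTarget_of_hunr hb hnM hℓM hA cv
    (Fermat.Agent.RED.CUSP.HorizConcrete26.hH_off hb hnM hℓM hA cv hcv)

/-- **(4) CUSP-concrete at the finite cusp values.** -/
theorem overTarget (hb : BaseHyp n e) (M : ℕ) [NeZero M] (hnM : n ∣ M) (ℓ : ℕ) [Fact ℓ.Prime]
    (hℓM : ¬ ℓ ∣ M) (A : ValuationSubring Qbar) (hA : A.LiesOverPrime ℓ)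
    (cv : SL(2, ℤ) → Option Kbar) (hcv : MainCusp12.CuspExports n e M cv) :
    OverTarget n e M A cv :=
  Fermat.Agent.RED.CUSP.CuspConcrete23.overTarget_of_hunr hb hnM hℓM hA cv hcv
    (Fermat.Agent.RED.CUSP.HorizConcrete26.hH_over hb hnM hℓM hA cv hcv)

/-- **(5) CUSP-concrete at infinity.** -/
theorem infTarget (hb : BaseHyp n e) (M : ℕ) [NeZero M] (hnM : n ∣ M) (ℓ : ℕ) [Fact ℓ.Prime]
    (hℓM : ¬ ℓ ∣ M) (A : ValuationSubring Qbar) (hA : A.LiesOverPrime ℓ)
    (cv : SL(2, ℤ) → Option Kbar) (hcv : MainCusp12.CuspExports n e M cv) :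
    InfTarget n e M A :=
  Fermat.Agent.RED.CUSP.CuspConcrete23.infTarget_of_hunr hb hnM hℓM hA cv hcv
    (Fermat.Agent.RED.CUSP.HorizConcrete26.hH_inf hb hnM hℓM hA cv hcv)

/-- **All MODEL targets**: the hypothesis of `S18OfTargets4.s18_of_targetsHyp`. -/
theorem targetsHyp : Fermat.Agent.RED.S18OfTargets4.TargetsHyp :=
  fun hb M _ hnM ℓ _ hℓM A hA cv hcv =>
    ⟨offTarget hb M hnM ℓ hℓM A hA cv hcv, overTarget hb M hnM ℓ hℓM A hA cv hcv,
      infTarget hb M hnM ℓ hℓM A hA cv hcv⟩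

end Fermat.Agent.RED.Targets26
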