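/-
Program H (S18), MODEL assembly (helper3): turnkey instantiation of `ChartTransfer3` for a DVR base.

`A` a discrete valuation ring with finite residue field, `K = Frac A` of characteristic zero,
`F/K` a field, `t : F` transcendental with `[F : K(t)] < ∞`.  Then the side conditions of
`ChartTransfer3.smooth1_of_smooth0` hold, so smoothness on `chart A t⁻¹` follows from smoothness on
`chart A t` and smoothness at the points of `chart A t⁻¹` over `t⁻¹ = 0`.
-/
import Mathlib
import Fermat.Agent.RED.ChartTransfer3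
import Fermat.Agent.RED.PUR.IntClosBase13
import Fermat.Agent.RED.ModelAsm4

set_option autoImplicit false
set_option linter.unusedSectionVars false
set_option linter.style.haveILetI false

noncomputable section

namespace Fermat.Agent.RED.ChartTransferInst3

open Polynomial IntermediateField
open Fermat.Agent.RED.PUR.ChartGeneric22 Fermat.Agent.RED.PUR.IntClosBase13
open Fermat.Agent.RED.ChartTransfer3

variable {A K F : Type*} [CommRing A] [IsDomain A] [IsDiscreteValuationRing A]
  [Field K] [Field F] [Algebra A K] [IsFractionRing A K] [Algebra K F] [Algebra A F]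
  [IsScalarTower A K F] [CharZero K]

/-- `A/(π)` is finite when the residue field of the DVR `A` is. -/
theorem finite_quotient_span {π : A} (hπ : Irreducible π)
    [Finite (IsLocalRing.ResidueField A)] : Finite (A ⧸ Ideal.span {π}) := by
  have h : IsLocalRing.maximalIdeal A = Ideal.span {π} := hπ.maximalIdeal_eq
  exact Finite.of_equiv (IsLocalRing.ResidueField A) (Ideal.quotEquivOfEq h).toEquiv

/-- The chart `chart A t` is an `A`-algebra of finite type. -/
theorem finiteType_chart (t : F) (ht : Transcendental K t) [FiniteDimensional K⟮t⟯ F] :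
    Algebra.FiniteType A ↥(chart A t) := by
  letI := polyAlgebra (A := A) t
  haveI := polyAlgebra_isScalarTower (A := A) t
  have hX : algebraMap A[X] F X = t := polyAlgebra_algebraMap_X (A := A) t
  haveI : Module.Finite A[X] ↥(integralClosure A[X] F) := finite_integralClosure (K := K) hX ht
  have h1 : Algebra.FiniteType A[X] ↥(integralClosure A[X] F) := inferInstance
  have h2 : Algebra.FiniteType A ↥(integralClosure A[X] F) :=
    Algebra.FiniteType.trans (inferInstance : Algebra.FiniteType A A[X]) h1
  let e : ↥(integralClosure A[X] F) ≃+* ↥(chart A t) := chartEquiv (A := A) hX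
  let f : ↥(integralClosure A[X] F) →ₐ[A] ↥(chart A t) :=
    { (e : ↥(integralClosure A[X] F) →+* ↥(chart A t)) with
      commutes' := fun a => by
        apply Subtype.ext
        show ((algebraMap A ↥(integralClosure A[X] F) a : ↥(integralClosure A[X] F)) : F) =
          algebraMap A F a
        rw [IsScalarTower.algebraMap_apply A A[X] ↥(integralClosure A[X] F)]
        show algebraMap A[X] F (algebraMap A A[X] a) = algebraMap A F a
        rw [← IsScalarTower.algebraMap_apply A A[X] F] }
  exact h2.of_surjective f e.surjective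

theorem adjoin_simple_inv (t : F) : K⟮t⁻¹⟯ = K⟮t⟯ := by
  apply le_antisymm
  · rw [IntermediateField.adjoin_simple_le_iff]
    exact inv_mem (IntermediateField.mem_adjoin_simple_self K t)
  · rw [IntermediateField.adjoin_simple_le_iff]
    have h : t⁻¹ ∈ K⟮t⁻¹⟯ := IntermediateField.mem_adjoin_simple_self K t⁻¹
    simpa using inv_mem h

theorem transcendental_inv {t : F} (ht : Transcendental K t) : Transcendental K t⁻¹ := by
  intro h
  exact ht (by simpa using h.inv)

theorem finiteDimensional_inv (t : F) [h : FiniteDimensional K⟮t⟯ F] :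
    FiniteDimensional K⟮t⁻¹⟯ F := by
  rw [adjoin_simple_inv]
  exact h

/-- **Turnkey chart transfer over a DVR with finite residue field.**  Smoothness (literal
`smooth0`/`smooth1` shape of `CoreIface24.TwoChartModel`) of `chart A t` at all maximal ideals
containing `π`, and of `chart A t⁻¹` at the maximal ideals containing `π` and `t⁻¹`, give smoothness
of `chart A t⁻¹` at all maximal ideals containing `π`. -/
theorem smooth_inv_of_smooth {π : A} (hπ : Irreducible π) [Finite (IsLocalRing.ResidueField A)]
    (t : F) (ht : Transcendental K t) [FiniteDimensional K⟮t⟯ F]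
    (h0 : ∀ x : Ideal (chart A t), x.IsMaximal → algebraMap A (chart A t) π ∈ x →
      ∃ s ∈ x, ∀ y ∈ x, ∃ d : chart A t, d ∉ x ∧
        d * y ∈ Ideal.span {algebraMap A (chart A t) π, s})
    (hinf : ∀ x : Ideal (chart A t⁻¹), x.IsMaximal → algebraMap A (chart A t⁻¹) π ∈ x →
      (⟨t⁻¹, self_mem_chart t⁻¹⟩ : chart A t⁻¹) ∈ x →
      ∃ s ∈ x, ∀ y ∈ x, ∃ d : chart A t⁻¹, d ∉ x ∧
        d * y ∈ Ideal.span {algebraMap A (chart A t⁻¹) π, s}) :
    ∀ x : Ideal (chart A t⁻¹), x.IsMaximal → algebraMap A (chart A t⁻¹) π ∈ x →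
      ∃ s ∈ x, ∀ y ∈ x, ∃ d : chart A t⁻¹, d ∉ x ∧
        d * y ∈ Ideal.span {algebraMap A (chart A t⁻¹) π, s} := by
  have ht0 : t ≠ 0 := by
    rintro rfl
    exact ht (isAlgebraic_zero)
  haveI := finite_quotient_span hπ
  haveI := finiteDimensional_inv (K := K) t
  haveI := finiteType_chart (A := A) (K := K) t⁻¹ (transcendental_inv ht)
  exact smooth1_of_smooth0 π ht0 (isMaximal_span hπ) h0 hinf

section Model

open HahnSeries ModularCurve
open Fermat.Agent.RED.CORE.CoreIface24 Fermat.Agent.RED.PUR.GaussGen8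
  Fermat.Agent.RED.PUR.KtGauss8 Fermat.Agent.RED.PUR.G1Package8
  Fermat.Agent.RED.NumInst4 Fermat.Agent.RED.ModelAsm4

variable {K₁ : Type*} [Field K₁] (O : ValuationSubring K₁)
  (E : IntermediateField K₁ (LaurentSeries K₁))

/-- **(LOC) at infinity**: smoothness of `chart O t⁻¹` at the maximal ideals containing `π` and
`t⁻¹` (the cusps over `t = ∞`). -/
def SmoothAtInfinity (π : ↥O) (t : ↥E) : Prop :=
  ∀ x : Ideal (chart ↥O t⁻¹), x.IsMaximal → algebraMap ↥O (chart ↥O t⁻¹) π ∈ x →
    (⟨t⁻¹, self_mem_chart t⁻¹⟩ : chart ↥O t⁻¹) ∈ x →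
    ∃ s₀ ∈ x, ∀ y ∈ x, ∃ d : chart ↥O t⁻¹, d ∉ x ∧
      d * y ∈ Ideal.span {algebraMap ↥O (chart ↥O t⁻¹) π, s₀}

variable {O E}

/-- `SmoothChart` on the chart at infinity from `SmoothChart` on the finite chart and smoothness at
the points over `t = ∞`. -/
theorem smoothChart_inv [IsDiscreteValuationRing ↥O] [CharZero K₁]
    [Finite (IsLocalRing.ResidueField ↥O)] {π : ↥O} (hπ : Irreducible π) (t : ↥E)
    (ht : Transcendental K₁ t) [FiniteDimensional ↥(IntermediateField.adjoin K₁ {t}) ↥E]
    (h0 : SmoothChart O E π t) (hinf : SmoothAtInfinity O E π t) : SmoothChart O E π t⁻¹ := by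
  have : IsScalarTower ↥O K₁ ↥E := isScalarTower_OE O E
  exact smooth_inv_of_smooth (A := ↥O) (K := K₁) (F := ↥E) hπ t ht h0 hinf

/-- **MODEL, generic assembly, one-chart form.**  As `ModelAsm4.hasModel_of_g1`, with `(LOC)` on
the chart at infinity only required at the points over `t = ∞`. -/
theorem hasModel_of_g1_inf [IsDiscreteValuationRing ↥O] [CharZero K₁]
    [Finite (IsLocalRing.ResidueField ↥O)] {π : ↥O} (hπ : Irreducible π)
    (hE : E ≤ fracField O) (t : ↥E)
    (ht : (t : LaurentSeries K₁) ∈ gaussRing O)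
    (htr : Transcendental (Res O) (gaussRed O ⟨(t : LaurentSeries K₁), ht⟩))
    {n : ℕ} (hn : relfinrank (Kt O ⟨(t : LaurentSeries K₁), ht⟩) E ≠ 0)
    (hdeg : DegLe O E ⟨(t : LaurentSeries K₁), ht⟩ n)
    (hirr : Irr O E ⟨(t : LaurentSeries K₁), ht⟩ n)
    (hsm0 : SmoothChart O E π t) (hinf : SmoothAtInfinity O E π t) :
    HasModel O E := by
  have : FiniteDimensional ↥(IntermediateField.adjoin K₁ {t}) ↥E := finiteDimensional_adjoin t hn
  have htrK : Transcendental K₁ t :=
    transcendental_of_coe t (transcendental_t (tG := ⟨(t : LaurentSeries K₁), ht⟩) hπ htr)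
  exact hasModel_of_g1 hπ hE t ht htr hn hdeg hirr hsm0 (smoothChart_inv hπ t htrK hsm0 hinf)

end Model

end Fermat.Agent.RED.ChartTransferInst3
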